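/-
GATE-L / L1-ABS part 1 (helper90): STRONG approximation for finitely many incomparable valuation
rings, to a prescribed precision `c`.

`Fermat.Agent.GK.MultiVal.exists_approx` approximates modulo the maximal ideals only.  If some
power of every maximal ideal lies in `c • W i` (discrete valuations, `c` a uniformiser of the base)
the same elementary argument gives approximation modulo `c`:

* `exists_partition_mod` : `z i ≡ 1 mod c` at `i`, `z i ≡ 0 mod c` at `j ≠ i`, `z i ∈ ⋂ W`;
* `exists_lift_mod` : `⋂ W → W i / c W i` is onto;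
* `exists_approx_mod` : `⋂ W → ∏ W i / c W i` is onto.
-/
import Mathlib
import Fermat.Agent.GK.MultiVal.Approx

set_option autoImplicit false

namespace Fermat.Agent.GL.MultiVal

open Fermat.Agent.GK.MultiVal Finset

variable {F : Type*} [Field F] {ι : Type*} {W : ι → ValuationSubring F}

/-- a geometric sum of elements of a valuation ring lies in it -/
theorem valuation_geom_sum_le_one (V : ValuationSubring F) {s : F} (hs : V.valuation s ≤ 1)
    (n : ℕ) : V.valuation (∑ m ∈ range n, s ^ m) ≤ 1 := by
  rw [ValuationSubring.valuation_le_one_iff]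
  refine Subring.sum_mem _ fun m _ => ?_
  exact Subring.pow_mem _ ((ValuationSubring.valuation_le_one_iff _ _).1 hs) m

variable [Fintype ι]

/-- **partition of unity modulo `c`**. -/
theorem exists_partition_mod [Nonempty ι] (hW : Incomparable W) (c : F) (N : ℕ)
    (hN : ∀ i x, (W i).valuation x < 1 → (W i).valuation (x ^ N) ≤ (W i).valuation c) :
    ∃ z : ι → F, (∀ i j, (W j).valuation (z i) ≤ 1) ∧
      (∀ i, (W i).valuation (z i - 1) ≤ (W i).valuation c) ∧
      (∀ i j, j ≠ i → (W j).valuation (z i) ≤ (W j).valuation c) := by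
  classical
  obtain ⟨y, hy1, hy2, hy3, -⟩ := exists_partition_of_unity hW
  -- `z i = 1 - (1 - y i ^ N) ^ N`
  have hs : ∀ i j, (W j).valuation (1 - y i ^ N) ≤ 1 := by
    intro i j
    refine (Valuation.map_sub _ _ _).trans (max_le (by rw [map_one]) ?_)
    rw [map_pow]
    exact pow_le_one₀ zero_le (hy1 i j)
  refine ⟨fun i => 1 - (1 - y i ^ N) ^ N, fun i j => ?_, fun i => ?_, fun i j hj => ?_⟩
  · show (W j).valuation (1 - (1 - y i ^ N) ^ N) ≤ 1
    refine (Valuation.map_sub _ _ _).trans (max_le (by rw [map_one]) ?_)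
    rw [map_pow]
    exact pow_le_one₀ zero_le (hs i j)
  · show (W i).valuation (1 - (1 - y i ^ N) ^ N - 1) ≤ (W i).valuation c
    have h1 : (1 : F) - (1 - y i ^ N) ^ N - 1 = -(1 - y i ^ N) ^ N := by ring
    rw [h1, Valuation.map_neg]
    apply hN
    -- `1 - y ^ N = (1 - y) * geometric sum`
    rw [← mul_neg_geom_sum (y i) N, map_mul]
    have h2 : (W i).valuation (1 - y i) < 1 := by
      rw [← Valuation.map_neg, neg_sub]; exact hy2 i
    calc (W i).valuation (1 - y i) * (W i).valuation (∑ m ∈ range N, y i ^ m)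
        ≤ (W i).valuation (1 - y i) * 1 := by
          gcongr
          exact valuation_geom_sum_le_one _ (hy1 i i) N
      _ < 1 := by rw [mul_one]; exact h2
  · -- `1 - s ^ N = (1 - s) * geometric sum` with `1 - s = y ^ N`
    show (W j).valuation (1 - (1 - y i ^ N) ^ N) ≤ (W j).valuation c
    have h1 : (1 : F) - (1 - y i ^ N) ^ N
        = y i ^ N * ∑ m ∈ range N, (1 - y i ^ N) ^ m := by
      rw [← mul_neg_geom_sum (1 - y i ^ N) N]
      ring
    rw [h1, map_mul]
    calc (W j).valuation (y i ^ N) * (W j).valuation (∑ m ∈ range N, (1 - y i ^ N) ^ m)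
        ≤ (W j).valuation c * 1 := by
          gcongr
          · exact hN j _ (hy3 i j hj)
          · exact valuation_geom_sum_le_one _ (hs i j) N
      _ = (W j).valuation c := mul_one _

/-- `⋂ W → W i / c W i` is onto. -/
theorem exists_lift_mod [Nonempty ι] (hW : Incomparable W) (c : F) (N : ℕ)
    (hN : ∀ i x, (W i).valuation x < 1 → (W i).valuation (x ^ N) ≤ (W i).valuation c)
    (i : ι) {a : F} (ha : a ∈ W i) :
    ∃ r : F, (∀ j, (W j).valuation r ≤ 1) ∧ (W i).valuation (r - a) ≤ (W i).valuation c := by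
  classical
  obtain ⟨b, hb1, hb2, hb3⟩ := exists_inv_geom W a
  have hbW : ∀ j, (W j).valuation b ≤ 1 := fun j => by
    by_cases hj : a ∈ W j
    · exact (hb1 j hj).le
    · exact (hb2 j hj).le
  obtain ⟨s', hs'1, hs'2⟩ := exists_inv_mod hW i hbW (hb1 i ha)
  -- `b * s' = 1 - ε`
  set ε : F := 1 - b * s' with hε
  have hε1 : ∀ j, (W j).valuation ε ≤ 1 := by
    intro j
    refine (Valuation.map_sub _ _ _).trans (max_le (by rw [map_one]) ?_)
    rw [map_mul]
    exact mul_le_one' (hbW j) (hs'1 j)
  have hε2 : (W i).valuation ε < 1 := by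
    rw [hε, ← Valuation.map_neg, neg_sub]; exact hs'2
  refine ⟨a * b * (s' * ∑ m ∈ range N, ε ^ m), fun j => ?_, ?_⟩
  · rw [map_mul, map_mul (W j).valuation s']
    exact mul_le_one' (hb3 j) (mul_le_one' (hs'1 j) (valuation_geom_sum_le_one _ (hε1 j) N))
  · have h1 : a * b * (s' * ∑ m ∈ range N, ε ^ m) - a = -(a * ε ^ N) := by
      have h2 : b * s' = 1 - ε := by rw [hε]; ring
      have h3 : (1 - ε) * ∑ m ∈ range N, ε ^ m = 1 - ε ^ N := mul_neg_geom_sum ε N
      calc a * b * (s' * ∑ m ∈ range N, ε ^ m) - a
          = a * ((b * s') * ∑ m ∈ range N, ε ^ m) - a := by ring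
        _ = a * (1 - ε ^ N) - a := by rw [h2, h3]
        _ = -(a * ε ^ N) := by ring
    rw [h1, Valuation.map_neg, map_mul]
    calc (W i).valuation a * (W i).valuation (ε ^ N)
        ≤ 1 * (W i).valuation c := by
          gcongr
          · exact (ValuationSubring.valuation_le_one_iff _ _).2 ha
          · exact hN i _ hε2
      _ = (W i).valuation c := one_mul _

/-- **Strong approximation**: `⋂ W → ∏ W i / c W i` is onto. -/
theorem exists_approx_mod (hW : Incomparable W) (c : F) (N : ℕ)
    (hN : ∀ i x, (W i).valuation x < 1 → (W i).valuation (x ^ N) ≤ (W i).valuation c)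
    (a : ι → F) (ha : ∀ i, a i ∈ W i) :
    ∃ x : F, (∀ j, (W j).valuation x ≤ 1) ∧
      ∀ i, (W i).valuation (x - a i) ≤ (W i).valuation c := by
  classical
  rcases isEmpty_or_nonempty ι with hι | hι
  · exact ⟨0, fun j => (IsEmpty.false j).elim, fun j => (IsEmpty.false j).elim⟩
  obtain ⟨z, hz1, hz2, hz3⟩ := exists_partition_mod hW c N hN
  choose r hr1 hr2 using fun i => exists_lift_mod hW c N hN i (ha i)
  refine ⟨∑ i, r i * z i, fun j => ?_, fun j => ?_⟩
  · rw [ValuationSubring.valuation_le_one_iff]
    refine Subring.sum_mem _ fun i _ => ?_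
    show r i * z i ∈ W j
    rw [← ValuationSubring.valuation_le_one_iff, map_mul]
    exact mul_le_one' (hr1 i j) (hz1 i j)
  · have hsplit : ∑ i, r i * z i - a j
        = (r j * (z j - 1) + (r j - a j)) + ∑ i ∈ Finset.univ.erase j, r i * z i := by
      rw [← Finset.add_sum_erase _ _ (Finset.mem_univ j)]; ring
    rw [hsplit]
    refine (Valuation.map_add _ _ _).trans (max_le ?_ ?_)
    · refine (Valuation.map_add _ _ _).trans (max_le ?_ (hr2 j))
      rw [map_mul]
      calc (W j).valuation (r j) * (W j).valuation (z j - 1)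
          ≤ 1 * (W j).valuation c := by
            gcongr
            · exact hr1 j j
            · exact hz2 j
        _ = (W j).valuation c := one_mul _
    · refine Valuation.map_sum_le _ fun i hi => ?_
      rw [map_mul]
      calc (W j).valuation (r i) * (W j).valuation (z i)
          ≤ 1 * (W j).valuation c := by
            gcongr
            · exact hr1 i j
            · exact hz3 i j (Finset.ne_of_mem_erase hi).symm
        _ = (W j).valuation c := one_mul _

end Fermat.Agent.GL.MultiVal
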