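/-
GATE-L / L1-ABS part 2 (helper90): the fundamental inequality WITH ramification, over a base
valuation ring `A ⊂ K` whose maximal ideal is principal (`𝔪_A = q A`, e.g. a DVR).

The norm pair is `(⋂ W i, c • ⋂ W i)` (`c = q`) instead of `(⋂ W i, ⋂ 𝔪 i)`; everything
ramification-free of `Fermat.Agent.GK.MultiVal` (norm pairs, orthonormal families, independence,
coordinates) applies verbatim to it.

* `qrad V c`, `brad W c` : the balls of radius `|c|`; `isNormPair_qrad`, `isNormPair_brad`.
* `ram_nonunits_of_le` : one place `V`, `ϖ` with `|c| ≤ |ϖ|^e`: if `∑ l_j ϖ^(α j) g_j ∈ ϖ^b V`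
  (`b ≤ e`, `l_j ∈ A`, the `g_j` with `α j = a` orthonormal for `(V, 𝔪_V)` for every `a`) then
  `l_j ∈ 𝔪_A` for all `j` with `α j < b`.
* `isOrthoFamily_ram` : the family `ϖ^(α j) g_j` (`α j < e`) is orthonormal for `(V, c V)`.
* `isOrthoFamily_joint_ram`, `exists_joint_family_ram` : ONE orthonormal family for
  `(⋂ W i, c ⋂ W i)` out of the local ones (strong approximation).
* `card_le_finrank_ram` : `∑ e_i f_i ≤ [F : K]`.
* `exists_basis_ram` : if `[F : K] ≤ ∑ e_i f_i` a `K`-basis `b` of `F` with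
  `⋂ W i = ⊕ A b_j`, `c ⋂ W i = ⊕ 𝔪_A b_j`, `b_j ≡ ϖ^(α j) g_j mod c` at `π j`, `b_j ≡ 0 mod c`
  elsewhere.
-/
import Mathlib
import Fermat.Agent.GK.MultiVal.RelFree
import Fermat.Agent.GL.MultiVal.Strong

set_option autoImplicit false

open Module

namespace Fermat.Agent.GL.MultiVal

open Fermat.Agent.GK.MultiVal

variable {K F : Type*} [Field K] [Field F] [Algebra K F] {ι : Type*}

/-! ### Balls of radius `|c|` -/

/-- the closed ball of radius `|c|` of a valuation subring, `c • V`, as an additive subgroup -/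
def qrad (V : ValuationSubring F) (c : F) : AddSubgroup F where
  carrier := {x | V.valuation x ≤ V.valuation c}
  zero_mem' := by
    show V.valuation 0 ≤ V.valuation c
    rw [map_zero]; exact zero_le
  add_mem' := fun {x y} hx hy => by
    show V.valuation (x + y) ≤ V.valuation c
    exact (V.valuation.map_add x y).trans (max_le hx hy)
  neg_mem' := fun {x} hx => by
    show V.valuation (-x) ≤ V.valuation c
    rw [Valuation.map_neg]; exact hx

theorem mem_qrad {V : ValuationSubring F} {c x : F} :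
    x ∈ qrad V c ↔ V.valuation x ≤ V.valuation c := Iff.rfl

/-- the closed ball of radius `|c|` of `max_i |x|_i` -/
def brad (W : ι → ValuationSubring F) (c : F) : AddSubgroup F := ⨅ i, qrad (W i) c

theorem mem_brad {W : ι → ValuationSubring F} {c x : F} :
    x ∈ brad W c ↔ ∀ i, (W i).valuation x ≤ (W i).valuation c := by
  rw [brad, AddSubgroup.mem_iInf]
  exact Iff.rfl

theorem isNormPair_qrad {A : ValuationSubring K} {V : ValuationSubring F}
    (hV : ∀ a : K, algebraMap K F a ∈ V ↔ a ∈ A) {c : F}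
    (hc : ∀ a ∈ A.nonunits, V.valuation (algebraMap K F a) ≤ V.valuation c)
    (hc1 : V.valuation c < 1) : IsNormPair A V.toSubring (qrad V c) where
  algebraMap_mem_iff := hV
  le := fun x hx => (V.valuation_le_one_iff x).mp (le_trans hx hc1.le)
  mul_mem := fun b hb x hx => by
    show V.valuation (b * x) ≤ V.valuation c
    rw [map_mul]
    have h1 : V.valuation b ≤ 1 := (V.valuation_le_one_iff b).mpr hb
    calc V.valuation b * V.valuation x ≤ 1 * V.valuation c := mul_le_mul' h1 hx
      _ = V.valuation c := one_mul _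
  smul_mem := fun a ha x hx => by
    show V.valuation (algebraMap K F a * x) ≤ V.valuation c
    rw [map_mul]
    have h1 : V.valuation x ≤ 1 := (V.valuation_le_one_iff x).mpr hx
    calc V.valuation (algebraMap K F a) * V.valuation x
        ≤ V.valuation c * 1 := mul_le_mul' (hc a ha) h1
      _ = V.valuation c := mul_one _
  one_notMem := fun h => by
    have h1 : V.valuation (1 : F) ≤ V.valuation c := h
    rw [map_one] at h1
    exact absurd hc1 (not_lt.mpr h1)

theorem isNormPair_brad [Nonempty ι] {A : ValuationSubring K} {W : ι → ValuationSubring F}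
    (hA : ∀ i (a : K), algebraMap K F a ∈ W i ↔ a ∈ A) {c : F}
    (hc : ∀ i, ∀ a ∈ A.nonunits, (W i).valuation (algebraMap K F a) ≤ (W i).valuation c)
    (hc1 : ∀ i, (W i).valuation c < 1) : IsNormPair A (ball W) (brad W c) where
  algebraMap_mem_iff := fun a => by
    rw [mem_ball]
    constructor
    · intro h
      obtain ⟨i⟩ := ‹Nonempty ι›
      exact (hA i a).mp (h i)
    · intro h i
      exact (hA i a).mpr h
  le := fun x hx => mem_ball.mpr fun i =>
    (isNormPair_qrad (hA i) (hc i) (hc1 i)).le x (mem_brad.mp hx i)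
  mul_mem := fun b hb x hx => mem_brad.mpr fun i =>
    (isNormPair_qrad (hA i) (hc i) (hc1 i)).mul_mem b (mem_ball.mp hb i) x (mem_brad.mp hx i)
  smul_mem := fun a ha x hx => mem_brad.mpr fun i =>
    (isNormPair_qrad (hA i) (hc i) (hc1 i)).smul_mem a ha x (mem_ball.mp hx i)
  one_notMem := fun h => by
    obtain ⟨i⟩ := ‹Nonempty ι›
    exact (isNormPair_qrad (hA i) (hc i) (hc1 i)).one_notMem (mem_brad.mp h i)

/-! ### One ramified place -/

section single

variable {A : ValuationSubring K} {V : ValuationSubring F} {c ϖ : F} {e : ℕ}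
  {J : Type*} {α : J → ℕ} {g : J → F}

/-- **The ramified filtration.**  If `∑ l_j ϖ^(α j) g_j ∈ ϖ^b V` with `b ≤ e`, then the
coefficients of exponent `< b` are non-units of `A`. -/
theorem ram_nonunits_of_le (hV : ∀ a : K, algebraMap K F a ∈ V ↔ a ∈ A)
    (hc : ∀ a ∈ A.nonunits, V.valuation (algebraMap K F a) ≤ V.valuation c)
    (hϖ : V.valuation ϖ < 1) (hϖ0 : ϖ ≠ 0) (he : V.valuation c ≤ V.valuation ϖ ^ e)
    (hg : ∀ a, IsOrthoFamily A V.toSubring (vrad V) (fun j : {j // α j = a} => g j))
    (l : J →₀ K) (hl : ∀ j, l j ∈ A) (b : ℕ) (hb : b ≤ e)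
    (hS : V.valuation (Finsupp.linearCombination K (fun j => ϖ ^ α j * g j) l)
      ≤ V.valuation ϖ ^ b) :
    ∀ j, α j < b → l j ∈ A.nonunits := by
  classical
  have hϖne : V.valuation ϖ ≠ 0 := (Valuation.ne_zero_iff _).mpr hϖ0
  have hgV : ∀ j, V.valuation (g j) ≤ 1 := fun j =>
    (V.valuation_le_one_iff _).mpr ((hg (α j)).mem ⟨j, rfl⟩)
  have hlV : ∀ j, V.valuation (algebraMap K F (l j)) ≤ 1 := fun j =>
    (V.valuation_le_one_iff _).mpr ((hV _).mpr (hl j))
  induction b with
  | zero => intro j hj; exact absurd hj (Nat.not_lt_zero _)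
  | succ b ih =>
    intro j₀ hj₀
    have hmono : V.valuation ϖ ^ (b + 1) ≤ V.valuation ϖ ^ b :=
      pow_le_pow_right_of_le_one' hϖ.le (Nat.le_succ b)
    have ih' := ih (Nat.le_of_succ_le hb) (hS.trans hmono)
    rcases Nat.lt_succ_iff_lt_or_eq.mp hj₀ with h | h
    · exact ih' j₀ h
    -- the coefficients of exponent exactly `b`
    let ε : {j // α j = b} → J := Subtype.val
    have hε : Function.Injective ε := Subtype.val_injective
    set l' := l.comapDomain ε hε.injOn with hl'
    have hl'A : ∀ q, l' q ∈ A := fun q => by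
      rw [hl', Finsupp.comapDomain_apply]; exact hl _
    set y' : J → F := fun j => if α j = b then g j else 0 with hy'
    have hkey : Finsupp.linearCombination K (fun j : {j // α j = b} => g j) l' ∈ vrad V := by
      rw [hl', Finsupp.linearCombination_comapDomain]
      have h1 : ∑ q ∈ l.support.preimage ε hε.injOn, l (ε q) • g q
          = ∑ j ∈ l.support, l j • y' j := by
        rw [← Finset.sum_preimage ε l.support hε.injOn (fun j => l j • y' j)]
        · refine Finset.sum_congr rfl fun q _ => ?_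
          have : y' q.1 = g q.1 := by simp [hy', q.2]
          simp only [ε, this]
        · intro j _ hj
          have hne : α j ≠ b := fun h => hj ⟨⟨j, h⟩, rfl⟩
          simp [hy', hne]
      rw [h1, mem_vrad]
      -- `ϖ^b * S_b = S - (other terms)`
      have h2 : ϖ ^ b * ∑ j ∈ l.support, l j • y' j
          = Finsupp.linearCombination K (fun j => ϖ ^ α j * g j) l
            - ∑ j ∈ l.support, l j • (ϖ ^ α j * g j - ϖ ^ b * y' j) := by
        rw [Finsupp.linearCombination_apply, Finsupp.sum, ← Finset.sum_sub_distrib,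
          Finset.mul_sum]
        refine Finset.sum_congr rfl fun j _ => ?_
        rw [← smul_sub, sub_sub_cancel, mul_smul_comm]
      have h3 : V.valuation (ϖ ^ b * ∑ j ∈ l.support, l j • y' j)
          ≤ V.valuation ϖ ^ (b + 1) := by
        rw [h2]
        refine (Valuation.map_sub _ _ _).trans (max_le hS ?_)
        refine Valuation.map_sum_le _ fun j _ => ?_
        rw [Algebra.smul_def, map_mul]
        by_cases hj : α j = b
        · have : ϖ ^ α j * g j - ϖ ^ b * y' j = 0 := by simp [hy', hj]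
          rw [this, map_zero, mul_zero]; exact zero_le
        · have hy0 : y' j = 0 := by simp [hy', hj]
          rw [hy0, mul_zero, sub_zero, map_mul, map_pow]
          rcases lt_or_gt_of_ne hj with hlt | hgt
          · -- exponent `< b`: the coefficient is a non-unit
            have h4 := hc _ (ih' j hlt)
            calc V.valuation (algebraMap K F (l j)) * (V.valuation ϖ ^ α j * V.valuation (g j))
                ≤ V.valuation c * (1 * 1) :=
                  mul_le_mul' h4 (mul_le_mul' (pow_le_one₀ zero_le hϖ.le) (hgV j))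
              _ = V.valuation c := by rw [mul_one, mul_one]
              _ ≤ V.valuation ϖ ^ e := he
              _ ≤ V.valuation ϖ ^ (b + 1) := pow_le_pow_right_of_le_one' hϖ.le hb
          · -- exponent `> b`
            calc V.valuation (algebraMap K F (l j)) * (V.valuation ϖ ^ α j * V.valuation (g j))
                ≤ 1 * (V.valuation ϖ ^ (b + 1) * 1) :=
                  mul_le_mul' (hlV j)
                    (mul_le_mul' (pow_le_pow_right_of_le_one' hϖ.le hgt) (hgV j))
              _ = V.valuation ϖ ^ (b + 1) := by rw [one_mul, mul_one]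
      rw [map_mul, map_pow, pow_succ] at h3
      have h5 : V.valuation (∑ j ∈ l.support, l j • y' j) ≤ V.valuation ϖ :=
        le_of_mul_le_mul_left h3 (by rw [zero_lt_iff]; exact pow_ne_zero _ hϖne)
      exact lt_of_le_of_lt h5 hϖ
    have := (hg b).indep l' hl'A hkey ⟨j₀, h⟩
    rw [hl', Finsupp.comapDomain_apply] at this
    exact this

/-- **The ramified orthonormal family of one place**: `ϖ^(α j) g_j`, `α j < e`, is orthonormal
for the norm pair `(V, c V)`. -/
theorem isOrthoFamily_ram (hV : ∀ a : K, algebraMap K F a ∈ V ↔ a ∈ A)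
    (hc : ∀ a ∈ A.nonunits, V.valuation (algebraMap K F a) ≤ V.valuation c)
    (hϖ : V.valuation ϖ < 1) (hϖ0 : ϖ ≠ 0) (he : V.valuation c ≤ V.valuation ϖ ^ e)
    (hα : ∀ j, α j < e)
    (hg : ∀ a, IsOrthoFamily A V.toSubring (vrad V) (fun j : {j // α j = a} => g j)) :
    IsOrthoFamily A V.toSubring (qrad V c) (fun j => ϖ ^ α j * g j) := by
  refine ⟨fun j => ?_, fun l hl hmem j => ?_⟩
  · refine V.toSubring.mul_mem (Subring.pow_mem _ ?_ _) ((hg (α j)).mem ⟨j, rfl⟩)
    exact (V.valuation_le_one_iff _).mp hϖ.le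
  · exact ram_nonunits_of_le hV hc hϖ hϖ0 he hg l hl e le_rfl
      ((mem_qrad.mp hmem).trans he) j (hα j)

end single

/-! ### The joint family -/

section family

variable {A : ValuationSubring K} {W : ι → ValuationSubring F}
  {J : Type*} {π : J → ι}

/-- the adjusted lifts form ONE orthonormal family for the semilocal ball, for arbitrary local
radii `I i` -/
theorem isOrthoFamily_joint_rad {I : ι → AddSubgroup F} {y : J → F}
    (hP : ∀ i, IsNormPair A (W i).toSubring (I i))
    (hy : ∀ i, IsOrthoFamily A (W i).toSubring (I i) (fun j : {j // π j = i} => y j))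
    {x : J → F} (hx1 : ∀ j, x j ∈ ball W) (hx2 : ∀ j i, i ≠ π j → x j ∈ I i)
    (hx3 : ∀ j, x j - y j ∈ I (π j)) :
    IsOrthoFamily A (ball W) (⨅ i, I i) x := by
  classical
  refine ⟨hx1, fun l hl hmem j₀ => ?_⟩
  set i₀ := π j₀ with hi₀
  have hP0 := hP i₀
  set y' : J → F := fun j => if π j = i₀ then y j else 0 with hy'
  have hsmall : ∀ j, x j - y' j ∈ I i₀ := by
    intro j
    by_cases h : π j = i₀
    · have h1 := hx3 j
      rw [h] at h1
      simpa [hy', h] using h1
    · have h1 := hx2 j i₀ (fun h' => h h'.symm)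
      simpa [hy', h] using h1
  let ε : {j // π j = i₀} → J := Subtype.val
  have hε : Function.Injective ε := Subtype.val_injective
  set l' := l.comapDomain ε hε.injOn with hl'
  have hl'A : ∀ q, l' q ∈ A := fun q => by
    rw [hl', Finsupp.comapDomain_apply]; exact hl _
  have hkey : Finsupp.linearCombination K (fun j : {j // π j = i₀} => y j) l' ∈ I i₀ := by
    rw [hl', Finsupp.linearCombination_comapDomain]
    have h1 : ∑ q ∈ l.support.preimage ε hε.injOn, l (ε q) • y q
        = ∑ j ∈ l.support, l j • y' j := by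
      rw [← Finset.sum_preimage ε l.support hε.injOn (fun j => l j • y' j)]
      · refine Finset.sum_congr rfl fun q _ => ?_
        have : y' q.1 = y q.1 := by simp [hy', q.2]
        simp only [ε, this]
      · intro j _ hj
        have hne : π j ≠ i₀ := fun h => hj ⟨⟨j, h⟩, rfl⟩
        simp [hy', hne]
    rw [h1]
    have h2 : ∑ j ∈ l.support, l j • y' j
        = Finsupp.linearCombination K x l - ∑ j ∈ l.support, l j • (x j - y' j) := by
      rw [Finsupp.linearCombination_apply, Finsupp.sum, ← Finset.sum_sub_distrib]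
      refine Finset.sum_congr rfl fun j _ => ?_
      rw [← smul_sub]
      congr 1
      ring
    rw [h2]
    refine (I i₀).sub_mem (AddSubgroup.mem_iInf.mp hmem i₀) ?_
    exact (I i₀).sum_mem fun j _ => hP0.smul_mem_rad' (hl j) (hsmall j)
  have := (hy i₀).indep l' hl'A hkey ⟨j₀, rfl⟩
  rw [hl', Finsupp.comapDomain_apply] at this
  exact this

variable [Fintype ι]

/-- by strong approximation, lifts can be chosen in the ball and `≡ 0 mod c` at the other
places -/
theorem exists_adjusted_mod (hW : Incomparable W) (c : F) (N : ℕ)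
    (hN : ∀ i x, (W i).valuation x < 1 → (W i).valuation (x ^ N) ≤ (W i).valuation c)
    {y : J → F} (hy : ∀ j, y j ∈ W (π j)) :
    ∃ x : J → F, (∀ j, x j ∈ ball W) ∧ (∀ j i, i ≠ π j → x j ∈ qrad (W i) c) ∧
      ∀ j, x j - y j ∈ qrad (W (π j)) c := by
  classical
  have h : ∀ j, ∃ x : F, (∀ i, (W i).valuation x ≤ 1) ∧
      ∀ i, (W i).valuation (x - (if i = π j then y j else 0)) ≤ (W i).valuation c := by
    intro j
    refine exists_approx_mod hW c N hN (fun i => if i = π j then y j else 0) (fun i => ?_)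
    by_cases h : i = π j
    · rw [if_pos h, h]; exact hy j
    · rw [if_neg h]; exact zero_mem _
  choose x hx1 hx2 using h
  refine ⟨x, fun j => mem_ball.mpr fun i => ((W i).valuation_le_one_iff _).mp (hx1 j i),
    fun j i hi => ?_, fun j => ?_⟩
  · have := hx2 j i
    rw [if_neg hi, sub_zero] at this
    exact this
  · have := hx2 j (π j)
    rw [if_pos rfl] at this
    exact this

variable {c : F} {ϖ : ι → F} {e : ι → ℕ} {α : J → ℕ} {g : J → F}

/-- the local ramified families `ϖ_i^(α j) g_j`, `π j = i` -/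
theorem isOrthoFamily_ram_fibre (hA : ∀ i (a : K), algebraMap K F a ∈ W i ↔ a ∈ A)
    (hc : ∀ i, ∀ a ∈ A.nonunits, (W i).valuation (algebraMap K F a) ≤ (W i).valuation c)
    (hϖ : ∀ i, (W i).valuation (ϖ i) < 1) (hϖ0 : ∀ i, ϖ i ≠ 0)
    (he : ∀ i, (W i).valuation c ≤ (W i).valuation (ϖ i) ^ e i)
    (hα : ∀ j, α j < e (π j))
    (hg : ∀ i a, IsOrthoFamily A (W i).toSubring (vrad (W i))
      (fun j : {j // π j = i ∧ α j = a} => g j)) (i : ι) :
    IsOrthoFamily A (W i).toSubring (qrad (W i) c)
      (fun j : {j // π j = i} => ϖ (π j) ^ α j * g j) := by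
  have h1 : (fun j : {j // π j = i} => ϖ (π j) ^ α j * g j)
      = fun j : {j // π j = i} => ϖ i ^ α j * g j := by
    funext j
    rw [j.2]
  rw [h1]
  refine isOrthoFamily_ram (α := fun j : {j // π j = i} => α j)
    (g := fun j : {j // π j = i} => g j) (hA i) (hc i) (hϖ i) (hϖ0 i) (he i)
    (fun j => by have := hα j.1; rwa [j.2] at this) (fun a => ?_)
  let φ : {j' : {j // π j = i} // α j'.1 = a} → {j // π j = i ∧ α j = a} :=
    fun j' => ⟨j'.1.1, j'.1.2, j'.2⟩
  have hφ : Function.Injective φ := by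
    intro j₁ j₂ h
    apply Subtype.ext
    apply Subtype.ext
    exact congrArg (fun z : {j // π j = i ∧ α j = a} => (z : J)) h
  exact IsOrthoFamily.comp (hg i a) hφ

/-- **The joint ramified orthonormal family.** -/
theorem exists_joint_family_ram (hW : Incomparable W)
    (hA : ∀ i (a : K), algebraMap K F a ∈ W i ↔ a ∈ A)
    (hc : ∀ i, ∀ a ∈ A.nonunits, (W i).valuation (algebraMap K F a) ≤ (W i).valuation c)
    (hc1 : ∀ i, (W i).valuation c < 1) (N : ℕ)
    (hN : ∀ i x, (W i).valuation x < 1 → (W i).valuation (x ^ N) ≤ (W i).valuation c)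
    (hϖ : ∀ i, (W i).valuation (ϖ i) < 1) (hϖ0 : ∀ i, ϖ i ≠ 0)
    (he : ∀ i, (W i).valuation c ≤ (W i).valuation (ϖ i) ^ e i)
    (hα : ∀ j, α j < e (π j))
    (hg : ∀ i a, IsOrthoFamily A (W i).toSubring (vrad (W i))
      (fun j : {j // π j = i ∧ α j = a} => g j)) :
    ∃ x : J → F, IsOrthoFamily A (ball W) (brad W c) x ∧
      (∀ j i, i ≠ π j → x j ∈ qrad (W i) c) ∧
      ∀ j, x j - ϖ (π j) ^ α j * g j ∈ qrad (W (π j)) c := by
  have hy := isOrthoFamily_ram_fibre hA hc hϖ hϖ0 he hα hg
  have hymem : ∀ j, ϖ (π j) ^ α j * g j ∈ W (π j) := fun j => (hy (π j)).mem ⟨j, rfl⟩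
  obtain ⟨x, hx1, hx2, hx3⟩ := exists_adjusted_mod hW c N hN hymem
  refine ⟨x, ?_, hx2, hx3⟩
  exact isOrthoFamily_joint_rad (I := fun i => qrad (W i) c)
    (fun i => isNormPair_qrad (hA i) (hc i) (hc1 i)) hy hx1 hx2 hx3

variable [Nonempty ι] [Fintype J] [FiniteDimensional K F]

/-- **The fundamental inequality with ramification**, `∑ e_i f_i ≤ [F : K]`
(`J` indexes the triples `(i, a, m)`, `a < e_i`, `m ≤ f_i`). -/
theorem card_le_finrank_ram (hW : Incomparable W)
    (hA : ∀ i (a : K), algebraMap K F a ∈ W i ↔ a ∈ A)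
    (hc : ∀ i, ∀ a ∈ A.nonunits, (W i).valuation (algebraMap K F a) ≤ (W i).valuation c)
    (hc1 : ∀ i, (W i).valuation c < 1) (N : ℕ)
    (hN : ∀ i x, (W i).valuation x < 1 → (W i).valuation (x ^ N) ≤ (W i).valuation c)
    (hϖ : ∀ i, (W i).valuation (ϖ i) < 1) (hϖ0 : ∀ i, ϖ i ≠ 0)
    (he : ∀ i, (W i).valuation c ≤ (W i).valuation (ϖ i) ^ e i)
    (hα : ∀ j, α j < e (π j))
    (hg : ∀ i a, IsOrthoFamily A (W i).toSubring (vrad (W i))
      (fun j : {j // π j = i ∧ α j = a} => g j)) :
    Fintype.card J ≤ finrank K F := by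
  obtain ⟨x, hx, -, -⟩ := exists_joint_family_ram hW hA hc hc1 N hN hϖ hϖ0 he hα hg
  exact (hx.linearIndependent (isNormPair_brad hA hc hc1)).fintype_card_le_finrank

/-- **Equality in the fundamental inequality with ramification**: the semilocal ball `⋂ W i` is
`A`-free on a `K`-basis of `F` lifting the local ramified families. -/
theorem exists_basis_ram (hW : Incomparable W)
    (hA : ∀ i (a : K), algebraMap K F a ∈ W i ↔ a ∈ A)
    (hc : ∀ i, ∀ a ∈ A.nonunits, (W i).valuation (algebraMap K F a) ≤ (W i).valuation c)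
    (hc1 : ∀ i, (W i).valuation c < 1) (N : ℕ)
    (hN : ∀ i x, (W i).valuation x < 1 → (W i).valuation (x ^ N) ≤ (W i).valuation c)
    (hϖ : ∀ i, (W i).valuation (ϖ i) < 1) (hϖ0 : ∀ i, ϖ i ≠ 0)
    (he : ∀ i, (W i).valuation c ≤ (W i).valuation (ϖ i) ^ e i)
    (hα : ∀ j, α j < e (π j))
    (hg : ∀ i a, IsOrthoFamily A (W i).toSubring (vrad (W i))
      (fun j : {j // π j = i ∧ α j = a} => g j))
    (hdeg : finrank K F ≤ Fintype.card J) :
    ∃ b : Basis J K F, IsOrthoFamily A (ball W) (brad W c) b ∧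
      (∀ j i, i ≠ π j → b j ∈ qrad (W i) c) ∧
      (∀ j, b j - ϖ (π j) ^ α j * g j ∈ qrad (W (π j)) c) ∧
      (∀ d : J → K, (∑ j, d j • b j) ∈ ball W ↔ ∀ j, d j ∈ A) ∧
      (∀ d : J → K, (∑ j, d j • b j) ∈ brad W c ↔ ∀ j, d j ∈ A.nonunits) := by
  classical
  obtain ⟨x, hx, hx2, hx3⟩ := exists_joint_family_ram hW hA hc hc1 N hN hϖ hϖ0 he hα hg
  have hP := isNormPair_brad hA hc hc1
  have hli := hx.linearIndependent hP
  have hcard : Fintype.card J = finrank K F := le_antisymm hli.fintype_card_le_finrank hdeg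
  have hJ : Nonempty J := by
    rw [← Fintype.card_pos_iff, hcard]
    exact finrank_pos
  let b : Basis J K F := basisOfLinearIndependentOfCardEqFinrank hli hcard
  have hb : ⇑b = x := coe_basisOfLinearIndependentOfCardEqFinrank hli hcard
  have hsum : ∀ d : J → K, ∑ j, d j • x j
      = Finsupp.linearCombination K x (Finsupp.equivFunOnFinite.symm d) := by
    intro d
    rw [Finsupp.linearCombination_apply, Finsupp.sum_fintype _ _ (fun i => zero_smul K (x i))]
    rfl
  refine ⟨b, by rw [hb]; exact hx, by rw [hb]; exact hx2, by rw [hb]; exact hx3, ?_, ?_⟩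
  · intro d
    rw [hb, hsum, hx.linearCombination_mem_iff hP]
    exact Iff.rfl
  · intro d
    rw [hb, hsum, hx.linearCombination_mem_rad_iff hP]
    exact Iff.rfl

end family

/-! ### Discrete valuations -/

/-- `q` is a uniformiser of the valuation ring `A`: `𝔪_A = q A`, `q ≠ 0`. -/
structure IsUnif (A : ValuationSubring K) (q : K) : Prop where
  ne_zero : q ≠ 0
  mem : q ∈ A.nonunits
  gen : ∀ a ∈ A.nonunits, A.valuation a ≤ A.valuation q

/-- `V` is an extension of `A` with uniformiser `ϖ` (`𝔪_V = ϖ V`) and ramification index `e`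
(`|ϖ|^e = |q|`). -/
structure IsRamified (A : ValuationSubring K) (q : K) (V : ValuationSubring F) (ϖ : F) (e : ℕ) :
    Prop where
  mem_iff : ∀ a : K, algebraMap K F a ∈ V ↔ a ∈ A
  lt_one : V.valuation ϖ < 1
  gen : ∀ x, V.valuation x < 1 → V.valuation x ≤ V.valuation ϖ
  pow_eq : V.valuation ϖ ^ e = V.valuation (algebraMap K F q)

section discrete

variable {A : ValuationSubring K} {q : K} {V : ValuationSubring F} {ϖ : F} {e : ℕ}

theorem IsRamified.valuation_q_lt_one (hq : IsUnif A q) (h : IsRamified A q V ϖ e) :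
    V.valuation (algebraMap K F q) < 1 :=
  (Fermat.Agent.GJ.Ortho.valuation_algebraMap_lt_one_iff h.mem_iff q).mpr
    ((ValuationSubring.mem_nonunits_iff _).mp hq.mem)

theorem IsRamified.valuation_q_ne_zero (hq : IsUnif A q) (_h : IsRamified A q V ϖ e) :
    V.valuation (algebraMap K F q) ≠ 0 := by
  rw [ne_eq, map_eq_zero, map_eq_zero]
  exact hq.ne_zero

theorem IsRamified.ne_zero (hq : IsUnif A q) (h : IsRamified A q V ϖ e) : ϖ ≠ 0 := by
  rintro rfl
  have h1 := h.pow_eq
  rw [map_zero] at h1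
  have he : e ≠ 0 := by
    rintro rfl
    rw [pow_zero] at h1
    exact absurd (h.valuation_q_lt_one hq) (by rw [← h1]; exact lt_irrefl _)
  rw [zero_pow he] at h1
  exact h.valuation_q_ne_zero hq h1.symm

theorem IsRamified.e_pos (hq : IsUnif A q) (h : IsRamified A q V ϖ e) : 0 < e := by
  rcases Nat.eq_zero_or_pos e with rfl | h0
  · have h1 := h.pow_eq
    rw [pow_zero] at h1
    exact absurd (h.valuation_q_lt_one hq) (by rw [← h1]; exact lt_irrefl _)
  · exact h0

/-- `𝔪_A ⊂ q V` -/
theorem IsRamified.valuation_algebraMap_le (hq : IsUnif A q) (h : IsRamified A q V ϖ e) :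
    ∀ a ∈ A.nonunits, V.valuation (algebraMap K F a) ≤ V.valuation (algebraMap K F q) := by
  intro a ha
  have hvq : A.valuation q ≠ 0 := (Valuation.ne_zero_iff _).mpr hq.ne_zero
  have h1 : a / q ∈ A := by
    rw [← ValuationSubring.valuation_le_one_iff, map_div₀]
    exact div_le_one_of_le₀ (hq.gen a ha) zero_le
  have h2 : V.valuation (algebraMap K F (a / q)) ≤ 1 :=
    (V.valuation_le_one_iff _).mpr ((h.mem_iff _).mpr h1)
  have h3 : algebraMap K F a = algebraMap K F (a / q) * algebraMap K F q := by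
    rw [← map_mul, div_mul_cancel₀ a hq.ne_zero]
  rw [h3, map_mul]
  calc V.valuation (algebraMap K F (a / q)) * V.valuation (algebraMap K F q)
      ≤ 1 * V.valuation (algebraMap K F q) := mul_le_mul' h2 le_rfl
    _ = V.valuation (algebraMap K F q) := one_mul _

/-- `𝔪_V ^ N ⊂ q V` for `N ≥ e` -/
theorem IsRamified.valuation_pow_le (h : IsRamified A q V ϖ e) {N : ℕ} (hN : e ≤ N)
    {x : F} (hx : V.valuation x < 1) :
    V.valuation (x ^ N) ≤ V.valuation (algebraMap K F q) := by
  rw [map_pow, ← h.pow_eq]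
  calc V.valuation x ^ N ≤ V.valuation ϖ ^ N := pow_le_pow_left' (h.gen x hx) N
    _ ≤ V.valuation ϖ ^ e := pow_le_pow_right_of_le_one' h.lt_one.le hN

end discrete

section discreteFamily

variable {A : ValuationSubring K} {q : K} {W : ι → ValuationSubring F} {ϖ : ι → F} {e : ι → ℕ}
  {J : Type*} {π : J → ι} {α : J → ℕ} {g : J → F} [Fintype ι]

theorem IsRamified.exists_pow_le (hR : ∀ i, IsRamified A q (W i) (ϖ i) (e i)) :
    ∀ i x, (W i).valuation x < 1 →
      (W i).valuation (x ^ (∑ i, e i)) ≤ (W i).valuation (algebraMap K F q) :=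
  fun i _ hx => (hR i).valuation_pow_le
    (Finset.single_le_sum (f := e) (fun _ _ => Nat.zero_le _) (Finset.mem_univ i)) hx

variable [Nonempty ι] [Fintype J] [FiniteDimensional K F]

/-- **The fundamental inequality `∑ e_i f_i ≤ [F : K]`**, discrete form. -/
theorem card_le_finrank_ram' (hW : Incomparable W) (hq : IsUnif A q)
    (hR : ∀ i, IsRamified A q (W i) (ϖ i) (e i)) (hα : ∀ j, α j < e (π j))
    (hg : ∀ i a, IsOrthoFamily A (W i).toSubring (vrad (W i))
      (fun j : {j // π j = i ∧ α j = a} => g j)) :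
    Fintype.card J ≤ finrank K F :=
  card_le_finrank_ram hW (fun i => (hR i).mem_iff)
    (fun i => (hR i).valuation_algebraMap_le hq) (fun i => (hR i).valuation_q_lt_one hq)
    (∑ i, e i) (IsRamified.exists_pow_le hR) (fun i => (hR i).lt_one)
    (fun i => (hR i).ne_zero hq) (fun i => (hR i).pow_eq.ge) hα hg

/-- **Equality in the fundamental inequality with ramification**, discrete form. -/
theorem exists_basis_ram' (hW : Incomparable W) (hq : IsUnif A q)
    (hR : ∀ i, IsRamified A q (W i) (ϖ i) (e i)) (hα : ∀ j, α j < e (π j))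
    (hg : ∀ i a, IsOrthoFamily A (W i).toSubring (vrad (W i))
      (fun j : {j // π j = i ∧ α j = a} => g j))
    (hdeg : finrank K F ≤ Fintype.card J) :
    ∃ b : Basis J K F, IsOrthoFamily A (ball W) (brad W (algebraMap K F q)) b ∧
      (∀ j i, i ≠ π j → b j ∈ qrad (W i) (algebraMap K F q)) ∧
      (∀ j, b j - ϖ (π j) ^ α j * g j ∈ qrad (W (π j)) (algebraMap K F q)) ∧
      (∀ d : J → K, (∑ j, d j • b j) ∈ ball W ↔ ∀ j, d j ∈ A) ∧
      (∀ d : J → K, (∑ j, d j • b j) ∈ brad W (algebraMap K F q) ↔ ∀ j, d j ∈ A.nonunits) :=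
  exists_basis_ram hW (fun i => (hR i).mem_iff)
    (fun i => (hR i).valuation_algebraMap_le hq) (fun i => (hR i).valuation_q_lt_one hq)
    (∑ i, e i) (IsRamified.exists_pow_le hR) (fun i => (hR i).lt_one)
    (fun i => (hR i).ne_zero hq) (fun i => (hR i).pow_eq.ge) hα hg hdeg

end discreteFamily

end Fermat.Agent.GL.MultiVal
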