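/-
GATE-L / L1e-NOEXT (helper75): equality in the fundamental inequality `∑ e_i f_i = [F : K]`
leaves NO ROOM for another extension of the base valuation.

Setting of helper90's `GL/MultiVal/RamFamily.lean`: `F / K` finite, `A ⊂ K` a valuation subring
with uniformiser `q` (`IsUnif A q`), `W : ι → ValuationSubring F` pairwise incomparable extensions
of `A`, discrete with uniformisers `ϖ i` and ramification indices `e i` (`IsRamified`), local
orthonormal families `g` (`J` indexes the triples `(i, a, m)`), and EQUALITY
`[F : K] ≤ card J`.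

* `valuation_pow_finrank_le` : ANY valuation subring `V` of `F` inducing `A` on `K` satisfies
  `𝔪_V ^ [F:K] ⊂ q V` (no discreteness hypothesis on `V`);
* `eq_of_le` : two valuation subrings of `F` inducing `A` on `K` are equal as soon as they are
  comparable;
* `exists_eq_of_finrank_le` : **every valuation subring `V` of `F` inducing `A` on `K` is one of
  the `W i`** ("`w₁, w₂, w₃` are ALL the vertical valuations of `F_L`");
* `isIntegral_of_mem_ball`, `mem_ball_of_isIntegral`, `ball_eq_integralClosure` : `⋂ W i` is the
  integral closure of `A` in `F`.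
-/
import Mathlib
import Fermat.Agent.GL.MultiVal.RamFamily

set_option autoImplicit false

open Module

namespace Fermat.Agent.GL.MultiVal.NoOtherExt

open Fermat.Agent.GK.MultiVal Fermat.Agent.GL.MultiVal

variable {K F : Type*} [Field K] [Field F] [Algebra K F]

/-! ### One valuation subring over a discrete base -/

section single

variable {A : ValuationSubring K} {q : K} {V : ValuationSubring F}

/-- `𝔪_A ⊂ q V` for every valuation subring `V` of `F` inducing `A` on `K` -/
theorem valuation_algebraMap_le_of_isUnif (hq : IsUnif A q)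
    (hV : ∀ a : K, algebraMap K F a ∈ V ↔ a ∈ A) :
    ∀ a ∈ A.nonunits, V.valuation (algebraMap K F a) ≤ V.valuation (algebraMap K F q) := by
  intro a ha
  have hvq : A.valuation q ≠ 0 := (Valuation.ne_zero_iff _).mpr hq.ne_zero
  have h1 : a / q ∈ A := by
    rw [← ValuationSubring.valuation_le_one_iff, map_div₀]
    exact div_le_one_of_le₀ (hq.gen a ha) zero_le
  have h2 : V.valuation (algebraMap K F (a / q)) ≤ 1 :=
    (V.valuation_le_one_iff _).mpr ((hV _).mpr h1)
  have h3 : algebraMap K F a = algebraMap K F (a / q) * algebraMap K F q := by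
    rw [← map_mul, div_mul_cancel₀ a hq.ne_zero]
  rw [h3, map_mul]
  calc V.valuation (algebraMap K F (a / q)) * V.valuation (algebraMap K F q)
      ≤ 1 * V.valuation (algebraMap K F q) := mul_le_mul' h2 le_rfl
    _ = V.valuation (algebraMap K F q) := one_mul _

theorem valuation_q_lt_one (hq : IsUnif A q) (hV : ∀ a : K, algebraMap K F a ∈ V ↔ a ∈ A) :
    V.valuation (algebraMap K F q) < 1 :=
  (Fermat.Agent.GJ.Ortho.valuation_algebraMap_lt_one_iff hV q).mpr
    ((ValuationSubring.mem_nonunits_iff _).mp hq.mem)

/-- **`𝔪_V ^ [F:K] ⊂ q V`**: no discreteness of `V` is needed, only that `F / K` is finite and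
`A` has the uniformiser `q`. -/
theorem valuation_pow_finrank_le [FiniteDimensional K F] (hq : IsUnif A q)
    (hV : ∀ a : K, algebraMap K F a ∈ V ↔ a ∈ A) {x : F} (hx : V.valuation x < 1) :
    V.valuation (x ^ finrank K F) ≤ V.valuation (algebraMap K F q) := by
  classical
  set n := finrank K F with hn
  have hnpos : 0 < n := finrank_pos
  rcases eq_or_ne x 0 with rfl | hx0
  · rw [zero_pow hnpos.ne', map_zero]
    exact zero_le
  have hvx0 : V.valuation x ≠ 0 := (Valuation.ne_zero_iff _).mpr hx0
  -- a linear relation between `1, x, …, x^n`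
  have hdep : ¬ LinearIndependent K (fun i : Fin (n + 1) => x ^ (i : ℕ)) := by
    intro hli
    have := hli.fintype_card_le_finrank
    rw [Fintype.card_fin] at this
    omega
  rw [Fintype.not_linearIndependent_iff] at hdep
  obtain ⟨c, hsum, i₁, hi₁⟩ := hdep
  set T : Fin (n + 1) → F := fun i => algebraMap K F (c i) * x ^ (i : ℕ) with hT
  have hsumT : ∑ i, T i = 0 := by
    rw [← hsum]
    exact Finset.sum_congr rfl fun i _ => (Algebra.smul_def _ _).symm
  -- the maximal term
  obtain ⟨j, -, hjmax⟩ := Finset.exists_max_image Finset.univ (fun i => V.valuation (T i))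
    ⟨i₁, Finset.mem_univ _⟩
  have hTi₁ : V.valuation (T i₁) ≠ 0 := by
    rw [hT, ne_eq, map_eq_zero]
    exact mul_ne_zero ((map_ne_zero _).mpr hi₁) (pow_ne_zero _ hx0)
  have hTj : V.valuation (T j) ≠ 0 := by
    intro h0
    have := hjmax i₁ (Finset.mem_univ _)
    rw [h0] at this
    exact hTi₁ (le_antisymm this zero_le)
  -- it is attained twice
  have htwice : ∃ i, i ≠ j ∧ V.valuation (T i) = V.valuation (T j) := by
    by_contra hcon
    have hlt : ∀ i ∈ Finset.univ \ {j}, V.valuation (T i) < V.valuation (T j) := by
      intro i hi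
      rw [Finset.mem_sdiff, Finset.mem_singleton] at hi
      exact lt_of_le_of_ne (hjmax i (Finset.mem_univ _)) fun h => hcon ⟨i, hi.2, h⟩
    have := Valuation.map_sum_eq_of_lt V.valuation (Finset.mem_univ j) hlt
    rw [hsumT, map_zero] at this
    exact hTj this.symm
  obtain ⟨i, hij, hval⟩ := htwice
  -- reduce to `i₀ < j₀` with equal valuations
  have key : ∀ i₀ j₀ : Fin (n + 1), (i₀ : ℕ) < j₀ → V.valuation (T i₀) = V.valuation (T j₀) →
      V.valuation (T j₀) ≠ 0 → V.valuation (x ^ n) ≤ V.valuation (algebraMap K F q) := by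
    intro i₀ j₀ hlt hv hne
    have hcj : c j₀ ≠ 0 := by
      intro h0
      apply hne
      rw [hT]
      simp only
      rw [h0, map_zero, zero_mul, map_zero]
    have hvcj : V.valuation (algebraMap K F (c j₀)) ≠ 0 :=
      (Valuation.ne_zero_iff _).mpr ((map_ne_zero _).mpr hcj)
    set a : K := c i₀ / c j₀ with ha
    obtain ⟨d, hd⟩ : ∃ d : ℕ, (j₀ : ℕ) = i₀ + d + 1 := ⟨j₀ - i₀ - 1, by omega⟩
    -- `|a| = |x|^(d+1)`
    have hva : V.valuation (algebraMap K F a) = V.valuation x ^ (d + 1) := by
      have h1 : V.valuation (algebraMap K F (c i₀)) * V.valuation x ^ (i₀ : ℕ) =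
          V.valuation (algebraMap K F (c j₀)) * V.valuation x ^ (j₀ : ℕ) := by
        have := hv
        rw [hT] at this
        simp only [map_mul, map_pow] at this
        exact this
      rw [ha, map_div₀, map_div₀, div_eq_iff hvcj]
      have hxi : V.valuation x ^ (i₀ : ℕ) ≠ 0 := pow_ne_zero _ hvx0
      apply mul_right_cancel₀ hxi
      rw [h1, hd, add_assoc, pow_add]
      ac_rfl
    have hlt1 : V.valuation (algebraMap K F a) < 1 := by
      rw [hva]
      calc V.valuation x ^ (d + 1) ≤ V.valuation x ^ 1 :=
            pow_le_pow_right_of_le_one' hx.le (by omega)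
        _ = V.valuation x := pow_one _
        _ < 1 := hx
    have haA : a ∈ A.nonunits := by
      rw [ValuationSubring.mem_nonunits_iff]
      exact (Fermat.Agent.GJ.Ortho.valuation_algebraMap_lt_one_iff hV a).mp hlt1
    have hle := valuation_algebraMap_le_of_isUnif hq hV a haA
    rw [hva] at hle
    rw [map_pow]
    have hdn : d + 1 ≤ n := by
      have := j₀.2
      omega
    exact (pow_le_pow_right_of_le_one' hx.le hdn).trans hle
  rcases lt_or_gt_of_ne (fun h : (i : ℕ) = j => hij (Fin.ext h)) with hlt | hgt
  · exact key i j hlt hval hTj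
  · exact key j i hgt hval.symm (by rw [hval]; exact hTj)

/-- two COMPARABLE valuation subrings of `F` inducing the same discrete `A` on `K` are equal -/
theorem eq_of_le [FiniteDimensional K F] (hq : IsUnif A q) {V₁ V₂ : ValuationSubring F}
    (h₁ : ∀ a : K, algebraMap K F a ∈ V₁ ↔ a ∈ A) (h₂ : ∀ a : K, algebraMap K F a ∈ V₂ ↔ a ∈ A)
    (hle : V₁ ≤ V₂) : V₁ = V₂ := by
  apply le_antisymm hle
  intro x hx2
  by_contra hx1
  -- `1/x ∈ 𝔪_{V₁}`
  have hx0 : x ≠ 0 := fun h => hx1 (h ▸ V₁.zero_mem)
  have hinv : V₁.valuation x⁻¹ < 1 := by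
    rw [map_inv₀]
    have : 1 < V₁.valuation x := by
      rw [← not_le, ValuationSubring.valuation_le_one_iff]
      exact hx1
    exact inv_lt_one_of_one_lt₀ this
  have hpow := valuation_pow_finrank_le hq h₁ hinv
  -- `(1/x)^n / q ∈ V₁ ⊂ V₂`
  have hq0 : algebraMap K F q ≠ 0 := (map_ne_zero _).mpr hq.ne_zero
  have hmem1 : x⁻¹ ^ finrank K F / algebraMap K F q ∈ V₁ := by
    rw [← ValuationSubring.valuation_le_one_iff, map_div₀]
    exact div_le_one_of_le₀ hpow zero_le
  have hmem2 : x⁻¹ ^ finrank K F / algebraMap K F q ∈ V₂ := hle hmem1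
  -- multiply by `x^n ∈ V₂`: `1/q ∈ V₂`
  have h3 : (algebraMap K F q)⁻¹ ∈ V₂ := by
    have := V₂.mul_mem _ _ (V₂.pow_mem hx2 (finrank K F)) hmem2
    have e : x ^ finrank K F * (x⁻¹ ^ finrank K F / algebraMap K F q) =
        (algebraMap K F q)⁻¹ := by
      rw [inv_pow, mul_div_assoc', mul_inv_cancel₀ (pow_ne_zero _ hx0), one_div]
    rwa [e] at this
  rw [← map_inv₀, h₂] at h3
  -- contradiction with `q ∈ 𝔪_A`
  have h4 : A.valuation q < 1 := (ValuationSubring.mem_nonunits_iff _).mp hq.mem
  have h5 : A.valuation q⁻¹ ≤ 1 := (A.valuation_le_one_iff _).mpr h3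
  rw [map_inv₀] at h5
  have h6 : A.valuation q ≠ 0 := (Valuation.ne_zero_iff _).mpr hq.ne_zero
  have h7 : 1 ≤ A.valuation q := by
    by_contra hcon
    exact absurd h5 (not_le.mpr (one_lt_inv_iff₀.mpr ⟨zero_lt_iff.mpr h6, not_le.mp hcon⟩))
  exact absurd h4 (not_lt.mpr h7)

end single

/-! ### No other extension -/

section family

variable {ι : Type*} [Fintype ι] {A : ValuationSubring K} {q : K} {W : ι → ValuationSubring F}
  {ϖ : ι → F} {e : ι → ℕ} {J : Type*} [Fintype J] {π : J → ι} {α : J → ℕ} {g : J → F}
  [FiniteDimensional K F]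

/-- the transport map of the local families to the family extended by one place -/
def optIdx (π : J → ι) (α : J → ℕ) (i₀ : ι) (a : ℕ) :
    {j : Option J // Option.map π j = some i₀ ∧ Option.elim j 0 α = a} →
      {j : J // π j = i₀ ∧ α j = a}
  | ⟨some j₀, h⟩ => ⟨j₀, Option.some.inj h.1, h.2⟩
  | ⟨none, h⟩ => absurd h.1 (by simp)

omit [Fintype ι] [Fintype J] in
theorem optIdx_injective (π : J → ι) (α : J → ℕ) (i₀ : ι) (a : ℕ) :
    Function.Injective (optIdx π α i₀ a) := by
  rintro ⟨j₁, h₁⟩ ⟨j₂, h₂⟩ h
  cases j₁ with
  | none => exact absurd h₁.1 (by simp)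
  | some j₁ =>
    cases j₂ with
    | none => exact absurd h₂.1 (by simp)
    | some j₂ =>
      have : j₁ = j₂ := congrArg (fun z : {j : J // π j = i₀ ∧ α j = a} => (z : J)) h
      subst this
      rfl

/-- **No other extension.**  If equality holds in the fundamental inequality
`∑ e_i f_i ≤ [F : K]` for the family `W`, every valuation subring of `F` inducing `A` on `K` is
one of the `W i`. -/
theorem exists_eq_of_finrank_le (hW : Incomparable W) (hq : IsUnif A q)
    (hR : ∀ i, IsRamified A q (W i) (ϖ i) (e i)) (hα : ∀ j, α j < e (π j))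
    (hg : ∀ i a, IsOrthoFamily A (W i).toSubring (vrad (W i))
      (fun j : {j // π j = i ∧ α j = a} => g j))
    (hdeg : finrank K F ≤ Fintype.card J)
    {V : ValuationSubring F} (hV : ∀ a : K, algebraMap K F a ∈ V ↔ a ∈ A) :
    ∃ i, V = W i := by
  classical
  by_contra hcon
  have hne : ∀ i, V ≠ W i := fun i h => hcon ⟨i, h⟩
  set W' : Option ι → ValuationSubring F := fun o => Option.elim o V W with hW'def
  have hW' : Incomparable W' := by
    intro i j hij hle
    cases i with
    | none =>
      cases j with
      | none => exact hij rfl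
      | some j => exact hne j (eq_of_le hq hV (hR j).mem_iff hle)
    | some i =>
      cases j with
      | none => exact hne i (eq_of_le hq (hR i).mem_iff hV hle).symm
      | some j => exact hW i j (fun h => hij (congrArg some h)) hle
  have hA' : ∀ (i : Option ι) (a : K), algebraMap K F a ∈ W' i ↔ a ∈ A := by
    intro i
    cases i with
    | none => exact hV
    | some i => exact (hR i).mem_iff
  have hc : ∀ i : Option ι, ∀ a ∈ A.nonunits,
      (W' i).valuation (algebraMap K F a) ≤ (W' i).valuation (algebraMap K F q) := by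
    intro i
    cases i with
    | none => exact valuation_algebraMap_le_of_isUnif hq hV
    | some i => exact (hR i).valuation_algebraMap_le hq
  have hc1 : ∀ i : Option ι, (W' i).valuation (algebraMap K F q) < 1 := by
    intro i
    cases i with
    | none => exact valuation_q_lt_one hq hV
    | some i => exact (hR i).valuation_q_lt_one hq
  set N := max (∑ i, e i) (finrank K F) with hNdef
  have hN : ∀ (i : Option ι) (x : F), (W' i).valuation x < 1 →
      (W' i).valuation (x ^ N) ≤ (W' i).valuation (algebraMap K F q) := by
    intro i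
    cases i with
    | none =>
      intro x hx
      refine le_trans ?_ (valuation_pow_finrank_le hq hV hx)
      rw [map_pow, map_pow]
      exact pow_le_pow_right_of_le_one' hx.le (le_max_right _ _)
    | some i =>
      intro x hx
      exact (hR i).valuation_pow_le
        ((Finset.single_le_sum (f := e) (fun _ _ => Nat.zero_le _) (Finset.mem_univ i)).trans
          (le_max_left _ _)) hx
  set ϖ' : Option ι → F := fun o => Option.elim o (algebraMap K F q) ϖ with hϖ'def
  set e' : Option ι → ℕ := fun o => Option.elim o 1 e with he'def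
  have hϖ' : ∀ i : Option ι, (W' i).valuation (ϖ' i) < 1 := by
    intro i
    cases i with
    | none => exact valuation_q_lt_one hq hV
    | some i => exact (hR i).lt_one
  have hϖ0 : ∀ i : Option ι, ϖ' i ≠ 0 := by
    intro i
    cases i with
    | none => exact (map_ne_zero _).mpr hq.ne_zero
    | some i => exact (hR i).ne_zero hq
  have he' : ∀ i : Option ι,
      (W' i).valuation (algebraMap K F q) ≤ (W' i).valuation (ϖ' i) ^ e' i := by
    intro i
    cases i with
    | none => exact le_of_eq (pow_one (V.valuation (algebraMap K F q))).symm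
    | some i => exact (hR i).pow_eq.ge
  have hα' : ∀ j : Option J, Option.elim j 0 α < e' (Option.map π j) := by
    intro j
    cases j with
    | none => exact Nat.one_pos
    | some j => exact hα j
  have hg' : ∀ (i : Option ι) (a : ℕ), IsOrthoFamily A (W' i).toSubring (vrad (W' i))
      (fun j : {j : Option J // Option.map π j = i ∧ Option.elim j 0 α = a} =>
        Option.elim (j : Option J) 1 g) := by
    intro i a
    cases i with
    | none =>
      refine ⟨?_, ?_⟩
      · rintro ⟨j, hj1, hj2⟩
        cases j with
        | none => exact V.one_mem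
        | some j₀ => exact absurd hj1 (by simp)
      · intro c hcA hmem j
        obtain ⟨j, hj1, hj2⟩ := j
        cases j with
        | some j₀ => exact absurd hj1 (by simp)
        | none =>
          set j0 : {j : Option J // Option.map π j = none ∧ Option.elim j 0 α = a} :=
            ⟨none, hj1, hj2⟩ with hj0
          have hsub : ∀ j : {j : Option J // Option.map π j = none ∧ Option.elim j 0 α = a},
              j = j0 := by
            rintro ⟨j, h1, h2⟩
            cases j with
            | none => rfl
            | some j₀ => exact absurd h1 (by simp)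
          have hc_eq : c = Finsupp.single j0 (c j0) := by
            ext j
            rw [hsub j, Finsupp.single_eq_same]
          have hmem' : V.valuation (algebraMap K F (c j0)) < 1 := by
            rw [hc_eq, Finsupp.linearCombination_single] at hmem
            have h1 : (c j0) • (Option.elim ((j0 : Option J)) (1 : F) g) =
                algebraMap K F (c j0) := by
              show (c j0) • (1 : F) = _
              rw [Algebra.smul_def, mul_one]
            rw [h1] at hmem
            exact hmem
          rw [ValuationSubring.mem_nonunits_iff]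
          exact (Fermat.Agent.GJ.Ortho.valuation_algebraMap_lt_one_iff hV _).mp hmem'
    | some i₀ =>
      have h := IsOrthoFamily.comp (hg i₀ a) (optIdx_injective π α i₀ a)
      have hfun : ((fun j : {j // π j = i₀ ∧ α j = a} => g j) ∘ optIdx π α i₀ a) =
          (fun j : {j : Option J // Option.map π j = some i₀ ∧ Option.elim j 0 α = a} =>
            Option.elim (j : Option J) 1 g) := by
        funext j
        obtain ⟨j, h1, h2⟩ := j
        cases j with
        | none => exact absurd h1 (by simp)
        | some j₀ => rfl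
      rw [hfun] at h
      exact h
  have hcard := card_le_finrank_ram (W := W') (π := Option.map π)
    (α := fun j : Option J => Option.elim j 0 α) (g := fun j : Option J => Option.elim j 1 g)
    (ϖ := ϖ') (e := e') hW' hA' hc hc1 N hN hϖ' hϖ0 he' hα' hg'
  rw [Fintype.card_option] at hcard
  omega

end family

/-! ### The semilocal ball is the integral closure -/

section integral

open Polynomial

variable {A : ValuationSubring K}

/-- a valuation subring of `F` containing the image of `A` contains every element of `F` which is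
integral over `A` (elementary form: a monic polynomial with coefficients in `A`) -/
theorem mem_of_monic_aeval_eq_zero {V : ValuationSubring F}
    (hV : ∀ a ∈ A, algebraMap K F a ∈ V) {x : F} {p : K[X]} (hp : p.Monic)
    (hcoef : ∀ n, p.coeff n ∈ A) (h0 : aeval x p = 0) : x ∈ V := by
  by_contra hx
  have hx1 : 1 < V.valuation x := by
    rw [← not_le, ValuationSubring.valuation_le_one_iff]
    exact hx
  have hx0 : V.valuation x ≠ 0 := (zero_lt_one.trans hx1).ne'
  set n := p.natDegree with hn
  have hsum : x ^ n = -∑ i ∈ Finset.range n, algebraMap K F (p.coeff i) * x ^ i := by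
    have h1 := h0
    rw [hp.as_sum, map_add, map_pow, aeval_X, map_sum] at h1
    have h2 : ∀ i ∈ Finset.range n, aeval x (C (p.coeff i) * X ^ i) =
        algebraMap K F (p.coeff i) * x ^ i := by
      intro i _
      rw [map_mul, aeval_C, map_pow, aeval_X]
    rw [Finset.sum_congr rfl h2] at h1
    exact eq_neg_of_add_eq_zero_left h1
  rcases Nat.eq_zero_or_pos n with hn0 | hnpos
  · rw [hn0, pow_zero, Finset.range_zero, Finset.sum_empty, neg_zero] at hsum
    exact one_ne_zero hsum
  · have hlt : V.valuation (∑ i ∈ Finset.range n, algebraMap K F (p.coeff i) * x ^ i) <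
        V.valuation x ^ n := by
      refine Valuation.map_sum_lt _ (pow_ne_zero _ hx0) fun i hi => ?_
      rw [Finset.mem_range] at hi
      rw [map_mul, map_pow]
      have h1 : V.valuation (algebraMap K F (p.coeff i)) ≤ 1 :=
        (V.valuation_le_one_iff _).mpr (hV _ (hcoef i))
      calc V.valuation (algebraMap K F (p.coeff i)) * V.valuation x ^ i
          ≤ 1 * V.valuation x ^ i := mul_le_mul' h1 le_rfl
        _ = V.valuation x ^ i := one_mul _
        _ < V.valuation x ^ n := pow_lt_pow_right₀ hx1 hi
    have := congrArg V.valuation hsum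
    rw [Valuation.map_neg, map_pow] at this
    exact absurd this hlt.ne'

variable {ι : Type*} [Fintype ι] [Nonempty ι] {q : K} {W : ι → ValuationSubring F}
  {ϖ : ι → F} {e : ι → ℕ} {J : Type*} [Fintype J] {π : J → ι} {α : J → ℕ} {g : J → F}
  [FiniteDimensional K F]

/-- **`⋂ W i` is integral over `A`** when equality holds in the fundamental inequality: every
element of the semilocal ball is a root of a monic polynomial with coefficients in `A`. -/
theorem exists_monic_of_mem_ball (hW : Incomparable W) (hq : IsUnif A q)
    (hR : ∀ i, IsRamified A q (W i) (ϖ i) (e i)) (hα : ∀ j, α j < e (π j))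
    (hg : ∀ i a, IsOrthoFamily A (W i).toSubring (vrad (W i))
      (fun j : {j // π j = i ∧ α j = a} => g j))
    (hdeg : finrank K F ≤ Fintype.card J) {x : F} (hx : x ∈ ball W) :
    ∃ p : K[X], p.Monic ∧ (∀ n, p.coeff n ∈ A) ∧ aeval x p = 0 := by
  classical
  obtain ⟨b, hb, -, -, hball, -⟩ := exists_basis_ram' hW hq hR hα hg hdeg
  set M : Matrix J J K := Algebra.leftMulMatrix b x with hMdef
  have hM : ∀ i j, M i j ∈ A := by
    intro i j
    rw [hMdef, Algebra.leftMulMatrix_eq_repr_mul]
    have hmem : x * b j ∈ ball W := (ball W).mul_mem hx (hb.mem j)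
    have h1 := (hball (fun k => b.repr (x * b j) k)).mp (by rw [b.sum_repr]; exact hmem)
    exact h1 i
  refine ⟨M.charpoly, Matrix.charpoly_monic M, ?_, ?_⟩
  · set M₀ : Matrix J J A := fun i j => ⟨M i j, hM i j⟩ with hM₀
    have hmap : M = M₀.map A.subtype := by
      ext i j
      rfl
    intro n
    rw [hmap, Matrix.charpoly_map, Polynomial.coeff_map]
    exact (M₀.charpoly.coeff n).2
  · apply Algebra.leftMulMatrix_injective b
    rw [← Polynomial.aeval_algHom_apply, map_zero]
    exact Matrix.aeval_self_charpoly M

/-- the semilocal ball `⋂ W i` is exactly the set of elements of `F` integral over `A` -/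
theorem mem_ball_iff_exists_monic (hW : Incomparable W) (hq : IsUnif A q)
    (hR : ∀ i, IsRamified A q (W i) (ϖ i) (e i)) (hα : ∀ j, α j < e (π j))
    (hg : ∀ i a, IsOrthoFamily A (W i).toSubring (vrad (W i))
      (fun j : {j // π j = i ∧ α j = a} => g j))
    (hdeg : finrank K F ≤ Fintype.card J) (x : F) :
    x ∈ ball W ↔ ∃ p : K[X], p.Monic ∧ (∀ n, p.coeff n ∈ A) ∧ aeval x p = 0 := by
  constructor
  · exact exists_monic_of_mem_ball hW hq hR hα hg hdeg
  · rintro ⟨p, hp, hcoef, h0⟩
    rw [mem_ball]
    intro i
    exact mem_of_monic_aeval_eq_zero (fun a ha => ((hR i).mem_iff a).mpr ha) hp hcoef h0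

/-- every valuation subring of `F` containing the image of `A` contains the semilocal ball -/
theorem ball_le_of_le (hW : Incomparable W) (hq : IsUnif A q)
    (hR : ∀ i, IsRamified A q (W i) (ϖ i) (e i)) (hα : ∀ j, α j < e (π j))
    (hg : ∀ i a, IsOrthoFamily A (W i).toSubring (vrad (W i))
      (fun j : {j // π j = i ∧ α j = a} => g j))
    (hdeg : finrank K F ≤ Fintype.card J) {V : ValuationSubring F}
    (hV : ∀ a ∈ A, algebraMap K F a ∈ V) {x : F} (hx : x ∈ ball W) : x ∈ V := by
  obtain ⟨p, hp, hcoef, h0⟩ := exists_monic_of_mem_ball hW hq hR hα hg hdeg hx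
  exact mem_of_monic_aeval_eq_zero hV hp hcoef h0

end integral

end Fermat.Agent.GL.MultiVal.NoOtherExt
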