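/-
GATE-L / L1e base change `K ⟶ K(j)` (helper90).

The concrete owners produce the vertical valuation subrings `W i` of `F = K₀(X₀(N))` over the
DVR `A = R₀ ⊂ K = K₀` (`IsUnif A q`, `IsRamified A q (W i) (ϖ i) (e i)`), but `F / K` is NOT
finite: the fundamental inequality / NOEXT (`card_le_finrank_ram'`, `exists_basis_ram'`,
`NoOtherExt.exists_eq_of_finrank_le`) must be run over the base `K(j)` with its Gauss valuation.
This file does that transfer abstractly, for any `j : F` at which the `W i` are Gauss points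
(`GL/Frame/GaussAt.lean`).

* `baseJ V₀ j : ValuationSubring K⟮j⟯` := `V₀.comap (algebraMap K⟮j⟯ F)` (the Gauss valuation
  subring of `K(j)` when `V₀` is a Gauss point at `j`);
* `over_baseJ`        : `V` over `A`, Gauss at `j` ⟹ `V ∩ K(j) = baseJ V₀ j`;
* `isUnif_baseJ`      : `IsUnif (baseJ V₀ j) q`;
* `isRamified_baseJ`  : `IsRamified A q V ϖ e`, `V` Gauss at `j` ⟹
                        `IsRamified (baseJ V₀ j) q V ϖ e` over `K(j)`;
* `exists_eq_of_agree`: NOEXT in the form consumed by `GL/Frame/GaussExtBridge.lean`.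
-/
import Mathlib
import Fermat.Agent.GL.MultiVal.NoOtherExt
import Fermat.Agent.GL.Frame.GaussAt

set_option autoImplicit false

open Polynomial IntermediateField

namespace Fermat.Agent.GL.MultiVal.GaussBaseJ

open Fermat.Agent.GK.MultiVal Fermat.Agent.GL.MultiVal Fermat.Agent.GL.GaussAt

variable {K F : Type*} [Field K] [Field F] [Algebra K F]

/-- the valuation subring induced by `V₀` on `K(j)` -/
def baseJ (V₀ : ValuationSubring F) (j : F) : ValuationSubring K⟮j⟯ :=
  V₀.comap (algebraMap K⟮j⟯ F)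

theorem mem_baseJ_iff (V₀ : ValuationSubring F) (j : F) (a : K⟮j⟯) :
    a ∈ baseJ (K := K) V₀ j ↔ algebraMap K⟮j⟯ F a ∈ V₀ := Iff.rfl

/-- `V₀` lies over `baseJ V₀ j`. -/
theorem over_baseJ_self (V₀ : ValuationSubring F) (j : F) :
    ∀ a : K⟮j⟯, algebraMap K⟮j⟯ F a ∈ V₀ ↔ a ∈ baseJ (K := K) V₀ j := fun _ => Iff.rfl

variable {A : ValuationSubring K} {V₀ V : ValuationSubring F} {j : F}

/-- every valuation subring over `A` which is Gauss at `j` lies over `baseJ V₀ j`. -/
theorem over_baseJ (hV₀ : ∀ a : K, algebraMap K F a ∈ V₀ ↔ a ∈ A)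
    (hV : ∀ a : K, algebraMap K F a ∈ V ↔ a ∈ A)
    (hj₀ : IsGaussAt A V₀ j) (hj : IsGaussAt A V j) :
    ∀ a : K⟮j⟯, algebraMap K⟮j⟯ F a ∈ V ↔ a ∈ baseJ (K := K) V₀ j := fun a =>
  hj.mem_iff_mem hV hV₀ hj₀ a.2

/-- at a Gauss point the values of elements of `K(j)` are values of constants. -/
theorem exists_const_valuation_eq (hj : IsGaussAt A V j) {y : F} (hy : y ∈ K⟮j⟯) :
    ∃ c : K, V.valuation y = V.valuation (algebraMap K F c) := by
  obtain ⟨r, s, rfl⟩ := (IntermediateField.mem_adjoin_simple_iff K y).mp hy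
  obtain ⟨i, hi⟩ := exists_max_coeff A r
  obtain ⟨l, hl⟩ := exists_max_coeff A s
  refine ⟨r.coeff i / s.coeff l, ?_⟩
  rw [map_div₀, hj.valuation_aeval r i hi, hj.valuation_aeval s l hl, map_div₀, map_div₀]

/-- `𝔪_V ∩ K(j) ⊂ q V` at a Gauss point. -/
theorem valuation_le_of_lt_one {q : K} (hq : IsUnif A q)
    (hV : ∀ a : K, algebraMap K F a ∈ V ↔ a ∈ A) (hj : IsGaussAt A V j) {y : F}
    (hy : y ∈ K⟮j⟯) (h : V.valuation y < 1) :
    V.valuation y ≤ V.valuation (algebraMap K F q) := by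
  obtain ⟨c, hc⟩ := exists_const_valuation_eq hj hy
  rw [hc] at h ⊢
  have h1 : c ∈ A.nonunits := by
    rw [ValuationSubring.mem_nonunits_iff, ← not_le]
    intro hle
    have := (valuation_algebraMap_le_iff hV 1 c).mpr (by rwa [map_one])
    rw [map_one, map_one] at this
    exact absurd h (not_lt.mpr this)
  exact (valuation_algebraMap_le_iff hV c q).mpr (hq.gen c h1)

/-- `q` is a uniformiser of the Gauss valuation subring of `K(j)`. -/
theorem isUnif_baseJ {q : K} (hq : IsUnif A q)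
    (hV₀ : ∀ a : K, algebraMap K F a ∈ V₀ ↔ a ∈ A) (hj₀ : IsGaussAt A V₀ j) :
    IsUnif (baseJ (K := K) V₀ j) (algebraMap K K⟮j⟯ q) := by
  have hover := over_baseJ_self (K := K) V₀ j
  have hcoe : algebraMap K⟮j⟯ F (algebraMap K K⟮j⟯ q) = algebraMap K F q :=
    (IsScalarTower.algebraMap_apply K K⟮j⟯ F q).symm
  have hq1 : V₀.valuation (algebraMap K F q) < 1 := by
    rw [← not_le]
    intro hle
    have := (valuation_algebraMap_le_iff hV₀ 1 q).mp (by rwa [map_one])
    rw [map_one] at this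
    exact absurd ((ValuationSubring.mem_nonunits_iff _).mp hq.mem) (not_lt.mpr this)
  refine ⟨(_root_.map_ne_zero _).mpr hq.ne_zero, ?_, fun a ha => ?_⟩
  · rw [ValuationSubring.mem_nonunits_iff, ← not_le]
    intro hle
    have := (valuation_algebraMap_le_iff hover 1 (algebraMap K K⟮j⟯ q)).mpr (by rwa [map_one])
    rw [map_one, map_one, hcoe] at this
    exact absurd hq1 (not_lt.mpr this)
  · rw [← valuation_algebraMap_le_iff hover, hcoe]
    refine valuation_le_of_lt_one hq hV₀ hj₀ a.2 ?_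
    rw [← not_le]
    intro hle
    have h1 := (valuation_algebraMap_le_iff hover 1 a).mp (by rwa [map_one])
    rw [map_one] at h1
    exact absurd ((ValuationSubring.mem_nonunits_iff _).mp ha) (not_lt.mpr h1)

/-- **base change of `IsRamified` from `K` to `K(j)`**. -/
theorem isRamified_baseJ {q : K} {ϖ : F} {e : ℕ}
    (hV₀ : ∀ a : K, algebraMap K F a ∈ V₀ ↔ a ∈ A) (hj₀ : IsGaussAt A V₀ j)
    (hR : IsRamified A q V ϖ e) (hj : IsGaussAt A V j) :
    IsRamified (baseJ (K := K) V₀ j) (algebraMap K K⟮j⟯ q) V ϖ e where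
  mem_iff := over_baseJ hV₀ hR.mem_iff hj₀ hj
  lt_one := hR.lt_one
  gen := hR.gen
  pow_eq := by
    rw [hR.pow_eq, ← IsScalarTower.algebraMap_apply K K⟮j⟯ F q]

/-- **NOEXT over `K(j)`** in the form consumed by `GaussExtBridge.exists_le_of_isGaussExt`:
a valuation subring of `F` which agrees with `W i₀` on `K(j)` is one of the `W i`, as soon as
equality holds in the fundamental inequality over `K(j)`. -/
theorem exists_eq_of_agree {ι : Type*} [Fintype ι] {W : ι → ValuationSubring F} {q : K}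
    {ϖ : ι → F} {e : ι → ℕ} {J : Type*} [Fintype J] {π : J → ι} {α : J → ℕ} {g : J → F}
    [FiniteDimensional K⟮j⟯ F] (i₀ : ι) (hW : Incomparable W) (hq : IsUnif A q)
    (hR : ∀ i, IsRamified A q (W i) (ϖ i) (e i)) (hG : ∀ i, IsGaussAt A (W i) j)
    (hα : ∀ l, α l < e (π l))
    (hg : ∀ i a, IsOrthoFamily (baseJ (K := K) (W i₀) j) (W i).toSubring (vrad (W i))
      (fun l : {l // π l = i ∧ α l = a} => g l))
    (hdeg : Module.finrank K⟮j⟯ F ≤ Fintype.card J)
    (V : ValuationSubring F) (hV : ∀ y ∈ K⟮j⟯, y ∈ V ↔ y ∈ W i₀) : ∃ i, V = W i :=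
  NoOtherExt.exists_eq_of_finrank_le hW
    (isUnif_baseJ hq (hR i₀).mem_iff (hG i₀))
    (fun i => isRamified_baseJ (hR i₀).mem_iff (hG i₀) (hR i) (hG i)) hα hg hdeg
    (fun a => hV _ a.2)

end Fermat.Agent.GL.MultiVal.GaussBaseJ
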