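/-
GATE-L / L1-ABS part 3a (helper90): two determinant lemmas (Mathlib only).

* `det_eq_prod_of_fibres` : a matrix which is block diagonal with respect to `π : m → ι`.
* `det_eq_pow_of_filtration` : a matrix which is block triangular with respect to an exponent
  `α : m → ℕ`, `α < e`, all of whose `e` diagonal blocks have determinant `N`.
-/
import Mathlib

set_option autoImplicit false

namespace Fermat.Agent.GL.MultiVal

open Matrix Finset

variable {R : Type*} [CommRing R] {m : Type*} [Fintype m] [DecidableEq m]

/-- the determinant of a matrix which is block diagonal along the fibres of `π` -/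
theorem det_eq_prod_of_fibres {ι : Type*} [Fintype ι] [DecidableEq ι] (M : Matrix m m R)
    (π : m → ι) (h0 : ∀ i j, π i ≠ π j → M i j = 0) :
    M.det = ∏ i : ι, (M.toSquareBlock π i).det := by
  classical
  let σ := Fintype.equivFin ι
  have hBT : M.BlockTriangular (fun l => σ (π l)) := by
    intro i j hij
    refine h0 i j fun h => ?_
    have hij' : σ (π j) < σ (π i) := hij
    rw [h] at hij'
    exact lt_irrefl _ hij'
  rw [hBT.det_fintype, ← Equiv.prod_comp σ]
  refine Finset.prod_congr rfl fun i _ => ?_
  exact equiv_block_det M fun l => by simp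

/-- the determinant of a matrix which is block triangular along an exponent filtration with
`e` diagonal blocks of determinant `N` -/
theorem det_eq_pow_of_filtration (B : Matrix m m R) (e : ℕ) (α : m → ℕ) (hα : ∀ s, α s < e)
    (N : R) (h0 : ∀ s' s, α s' < α s → B s' s = 0)
    (hN : ∀ a, a < e → (B.toSquareBlock α a).det = N) : B.det = N ^ e := by
  classical
  let κ : m → (Fin e)ᵒᵈ := fun s => OrderDual.toDual ⟨α s, hα s⟩
  have hBT : B.BlockTriangular κ := by
    intro s' s hlt
    apply h0
    exact hlt
  rw [hBT.det_fintype]
  have hblock : ∀ a : (Fin e)ᵒᵈ, (B.toSquareBlock κ a).det = N := by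
    intro a
    rw [← hN (OrderDual.ofDual a).val (OrderDual.ofDual a).isLt]
    refine equiv_block_det B fun s => ?_
    constructor
    · intro h
      show OrderDual.toDual (⟨α s, hα s⟩ : Fin e) = a
      rw [← OrderDual.toDual_ofDual a]
      congr 1
      exact Fin.ext h
    · intro h
      have h1 : (⟨α s, hα s⟩ : Fin e) = OrderDual.ofDual a := by
        rw [← h]; rfl
      exact congrArg Fin.val h1
  rw [Finset.prod_congr rfl fun a _ => hblock a, Finset.prod_const, Finset.card_univ]
  congr 1
  simp

end Fermat.Agent.GL.MultiVal
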