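/-
GATE-L / L1-ABS part 3 (helper90): the norm-reduction formula WITH ramification exponents, in
valuation-subring / reduction-datum language.

`F / K` finite, `A ⊂ K` a valuation ring with uniformiser `q`, `W i` finitely many incomparable
valuation rings of `F` over `A` with reductions `red i : W i ->> Ft i` over `res : A ->> k`,
uniformisers `ϖ i`, `|ϖ i|^(e i) = |q|`, and `[F : K] ≤ ∑ e_i [Ft i : k]`.  Then for `u ∈ ⋂ W i`

  `Nm_{F/K} u ∈ A`  and  `res (Nm_{F/K} u) = ∏_i Nm_{Ft i / k} (red_i u) ^ (e i)`.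

Proof: on the basis `b_j ≡ ϖ_i^a g_{i,m}` of `RamFamily.exists_basis_ram'` the matrix of `u` is,
modulo `𝔪_A`, block diagonal in `i` and block triangular in `a`, with diagonal blocks the matrix
of `red_i u` on a `k`-basis of `Ft i`.
-/
import Mathlib
import Fermat.Agent.GL.MultiVal.RamFamily
import Fermat.Agent.GL.MultiVal.BlockDet

set_option autoImplicit false

open Module

namespace Fermat.Agent.GL.MultiVal

open Fermat.Agent.GK.MultiVal

variable {K F k : Type*} [Field K] [Field F] [Algebra K F] [Field k] {ι : Type*}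

/-! ### Families of reduction data -/

/-- the reduction map of a valuation subring, on the subring `V.toSubring` -/
def redSub (V : ValuationSubring F) {Ft : Type*} [Field Ft] (red : V →+* Ft) :
    V.toSubring →+* Ft where
  toFun x := red ⟨x, x.2⟩
  map_one' := map_one red
  map_mul' x y := map_mul red ⟨x, x.2⟩ ⟨y, y.2⟩
  map_zero' := map_zero red
  map_add' x y := map_add red ⟨x, x.2⟩ ⟨y, y.2⟩

/-- A family of reduction data `red i : W i ->> Ft i` over ONE base datum `res : A ->> k`. -/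
structure RedFam (A : ValuationSubring K) (res : A →+* k) (W : ι → ValuationSubring F)
    (Ft : ι → Type*) [∀ i, Field (Ft i)] [∀ i, Algebra k (Ft i)]
    (red : ∀ i, W i →+* Ft i) : Prop where
  mem_iff : ∀ i (a : K), algebraMap K F a ∈ W i ↔ a ∈ A
  res_surj : Function.Surjective res
  res_ker : ∀ a : A, res a = 0 ↔ (a : K) ∈ A.nonunits
  red_surj : ∀ i, Function.Surjective (red i)
  red_ker : ∀ i (x : W i), red i x = 0 ↔ (W i).valuation (x : F) < 1
  red_algebraMap : ∀ i (a : A),
    red i ⟨algebraMap K F (a : K), (mem_iff i a).mpr a.2⟩ = algebraMap k (Ft i) (res a)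

section redfam

variable {A : ValuationSubring K} {res : A →+* k} {W : ι → ValuationSubring F}
  {Ft : ι → Type*} [∀ i, Field (Ft i)] [∀ i, Algebra k (Ft i)] {red : ∀ i, W i →+* Ft i}

theorem RedFam.red_smul (h : RedFam A res W Ft red) (i : ι) (a : A) (x : W i)
    (hax : (a : K) • (x : F) ∈ W i) :
    red i ⟨(a : K) • (x : F), hax⟩ = res a • red i x := by
  have h1 : (⟨(a : K) • (x : F), hax⟩ : W i)
      = ⟨algebraMap K F (a : K), (h.mem_iff i a).mpr a.2⟩ * x := by
    apply Subtype.ext
    show (a : K) • (x : F) = algebraMap K F (a : K) * (x : F)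
    rw [Algebra.smul_def]
  rw [h1, map_mul, h.red_algebraMap i a, Algebra.smul_def]

theorem RedFam.isRedSystem (h : RedFam A res W Ft red) (i : ι) :
    IsRedSystem A (W i).toSubring (vrad (W i)) res (redSub (W i) (red i)).toAddMonoidHom
      (isNormPair_single (h.mem_iff i)) where
  res_surj := h.res_surj
  res_ker := h.res_ker
  red_ker := fun x => h.red_ker i ⟨x, x.2⟩
  red_smul := fun a x => h.red_smul i a ⟨x, x.2⟩ _

/-- lifts of a `k`-linearly independent family of the residue field are orthonormal -/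
theorem RedFam.isOrthoFamily_of_red (h : RedFam A res W Ft red) (i : ι) {M : Type*}
    (g : M → F) (hg : ∀ m, g m ∈ W i)
    (hli : LinearIndependent k fun m => red i ⟨g m, hg m⟩) :
    IsOrthoFamily A (W i).toSubring (vrad (W i)) g :=
  (h.isRedSystem i).isOrthoFamily_of_linearIndependent
    (fun m => (⟨g m, hg m⟩ : (W i).toSubring)) hli

theorem RedFam.red_eq_of_sub_lt (h : RedFam A res W Ft red) (i : ι) {x y : F} (hx : x ∈ W i)
    (hy : y ∈ W i) (hxy : (W i).valuation (x - y) < 1) :
    red i ⟨x, hx⟩ = red i ⟨y, hy⟩ := by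
  have h1 : red i (⟨x, hx⟩ - ⟨y, hy⟩) = 0 := (h.red_ker i _).mpr hxy
  rw [map_sub, sub_eq_zero] at h1
  exact h1

end redfam

/-! ### Bases adapted to the ramified filtration -/

/-- A `K`-basis `b` of `F` adapted to the places `W i` and their `ϖ i`-adic filtrations: the
output of `exists_basis_ram'`. -/
structure RamBasis (A : ValuationSubring K) (q : K) (W : ι → ValuationSubring F) (ϖ : ι → F)
    (e : ι → ℕ) {J : Type*} [Fintype J] (π : J → ι) (α : J → ℕ) (g : J → F)
    (b : Basis J K F) : Prop where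
  α_lt : ∀ j, α j < e (π j)
  g_ortho : ∀ i a, IsOrthoFamily A (W i).toSubring (vrad (W i))
    (fun j : {j // π j = i ∧ α j = a} => g j)
  off : ∀ j i, i ≠ π j → b j ∈ qrad (W i) (algebraMap K F q)
  near : ∀ j, b j - ϖ (π j) ^ α j * g j ∈ qrad (W (π j)) (algebraMap K F q)
  mem_iff : ∀ d : J → K, (∑ j, d j • b j) ∈ ball W ↔ ∀ j, d j ∈ A

section rambasis

variable {A : ValuationSubring K} {q : K} {W : ι → ValuationSubring F} {ϖ : ι → F} {e : ι → ℕ}
  {J : Type*} [Fintype J] {π : J → ι} {α : J → ℕ} {g : J → F} {b : Basis J K F}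

theorem ortho_nested
    (hg : ∀ i a, IsOrthoFamily A (W i).toSubring (vrad (W i))
      (fun j : {j // π j = i ∧ α j = a} => g j)) (i : ι) (a : ℕ) :
    IsOrthoFamily A (W i).toSubring (vrad (W i))
      (fun j' : {j' : {j // π j = i} // α j'.1 = a} => g j'.1.1) := by
  let φ : {j' : {j // π j = i} // α j'.1 = a} → {j // π j = i ∧ α j = a} :=
    fun j' => ⟨j'.1.1, j'.1.2, j'.2⟩
  have hφ : Function.Injective φ := by
    intro j₁ j₂ h
    apply Subtype.ext
    apply Subtype.ext
    exact congrArg (fun z : {j // π j = i ∧ α j = a} => (z : J)) h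
  exact IsOrthoFamily.comp (hg i a) hφ

theorem RamBasis.g_mem (hB : RamBasis A q W ϖ e π α g b) (j : J) : g j ∈ W (π j) :=
  (hB.g_ortho (π j) (α j)).mem ⟨j, rfl, rfl⟩

theorem RamBasis.b_mem (hB : RamBasis A q W ϖ e π α g b) (j : J) : b j ∈ ball W := by
  classical
  have h := (hB.mem_iff (fun j' => if j' = j then 1 else 0)).mpr (fun j' => by
    by_cases hj : j' = j
    · simp only [if_pos hj]; exact A.one_mem
    · simp only [if_neg hj]; exact A.zero_mem)
  simpa using h

/-- the ramified filtration at the place `i`, read off on coefficients (finite sums) -/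
theorem RamBasis.nonunits_of_le (hB : RamBasis A q W ϖ e π α g b) (hq : IsUnif A q)
    (hR : ∀ i, IsRamified A q (W i) (ϖ i) (e i)) (i : ι) (d : J → K) (hd : ∀ j, d j ∈ A)
    (hd0 : ∀ j, π j ≠ i → d j = 0) (n : ℕ) (hn : n ≤ e i)
    (hS : (W i).valuation (∑ j, d j • (ϖ i ^ α j * g j)) ≤ (W i).valuation (ϖ i) ^ n) :
    ∀ j, π j = i → α j < n → d j ∈ A.nonunits := by
  classical
  set l : {j // π j = i} →₀ K := Finsupp.equivFunOnFinite.symm (fun j : {j // π j = i} => d j)
    with hl
  have hsum : Finsupp.linearCombination K (fun j : {j // π j = i} => ϖ i ^ α j * g j) l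
      = ∑ j, d j • (ϖ i ^ α j * g j) := by
    rw [Finsupp.linearCombination_apply]
    have h0 := Finsupp.sum_fintype l
      (fun (j : {j // π j = i}) (a : K) => a • (ϖ i ^ α (j : J) * g (j : J)))
      (fun j => zero_smul K _)
    rw [h0]
    have h1 := Finset.sum_subtype (F := inferInstance) (Finset.univ.filter (fun j => π j = i))
      (p := fun j => π j = i) (by simp) (fun j => d j • (ϖ i ^ α j * g j))
    rw [Finset.sum_filter] at h1
    have h2 : ∑ j, (if π j = i then d j • (ϖ i ^ α j * g j) else 0)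
        = ∑ j, d j • (ϖ i ^ α j * g j) := by
      refine Finset.sum_congr rfl fun j _ => ?_
      split_ifs with h
      · rfl
      · rw [hd0 j h, zero_smul]
    rw [← h2, h1]
    rfl
  intro j hj hlt
  have := ram_nonunits_of_le (α := fun j : {j // π j = i} => α j)
    (g := fun j : {j // π j = i} => g j) (hR i).mem_iff
    ((hR i).valuation_algebraMap_le hq) (hR i).lt_one ((hR i).ne_zero hq) (hR i).pow_eq.ge
    (ortho_nested hB.g_ortho i) l (fun j' => hd j') n hn (by rw [hsum]; exact hS) ⟨j, hj⟩ hlt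
  exact this

/-- **Coefficient congruences.**  If `z ∈ ⋂ W` is congruent modulo `ϖ_i^n` (`n ≤ e_i`) to an
integral combination `∑ τ_j ϖ_i^(α j) g_j` at the place `i`, then its coordinates of exponent
`< n` at `i` are congruent to the `τ_j` modulo `𝔪_A`. -/
theorem RamBasis.repr_sub_nonunits (hB : RamBasis A q W ϖ e π α g b) (hq : IsUnif A q)
    (hR : ∀ i, IsRamified A q (W i) (ϖ i) (e i)) {z : F} (hz : z ∈ ball W) (i : ι) (n : ℕ)
    (hn : n ≤ e i) (τ : J → K) (hτ : ∀ j, τ j ∈ A) (hτ0 : ∀ j, π j ≠ i → τ j = 0)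
    (hclose : (W i).valuation (z - ∑ j, τ j • (ϖ i ^ α j * g j)) ≤ (W i).valuation (ϖ i) ^ n) :
    ∀ j, π j = i → α j < n → b.repr z j - τ j ∈ A.nonunits := by
  classical
  set c : F := algebraMap K F q with hc
  have hdz : ∑ j, b.repr z j • b j = z := b.sum_repr z
  have hdA : ∀ j, b.repr z j ∈ A := (hB.mem_iff fun j => b.repr z j).mp (by rw [hdz]; exact hz)
  have hP := isNormPair_qrad (hR i).mem_iff ((hR i).valuation_algebraMap_le hq)
    ((hR i).valuation_q_lt_one hq)
  set d' : J → K := fun j => if π j = i then b.repr z j - τ j else 0 with hd'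
  have hd'A : ∀ j, d' j ∈ A := by
    intro j
    simp only [hd']
    split_ifs
    · exact A.toSubring.sub_mem (hdA j) (hτ j)
    · exact A.zero_mem
  have hsmall : ∀ j, b j - (if π j = i then ϖ i ^ α j * g j else 0) ∈ qrad (W i) c := by
    intro j
    by_cases h : π j = i
    · have h1 := hB.near j
      rw [h] at h1
      simpa [h] using h1
    · have h1 := hB.off j i (fun h' => h h'.symm)
      simpa [h] using h1
  have key : ∑ j, d' j • (ϖ i ^ α j * g j)
      = (z - ∑ j, τ j • (ϖ i ^ α j * g j))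
        - ∑ j, b.repr z j • (b j - (if π j = i then ϖ i ^ α j * g j else 0)) := by
    rw [← hdz, ← Finset.sum_sub_distrib, ← Finset.sum_sub_distrib]
    refine Finset.sum_congr rfl fun j _ => ?_
    by_cases h : π j = i
    · simp only [hd', if_pos h]
      rw [hdz]
      module
    · simp only [hd', if_neg h, hτ0 j h]
      rw [hdz]
      module
  have hbound : (W i).valuation (∑ j, d' j • (ϖ i ^ α j * g j)) ≤ (W i).valuation (ϖ i) ^ n := by
    rw [key]
    refine (Valuation.map_sub _ _ _).trans (max_le hclose ?_)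
    have h1 : ∑ j, b.repr z j • (b j - (if π j = i then ϖ i ^ α j * g j else 0))
        ∈ qrad (W i) c :=
      (qrad (W i) c).sum_mem fun j _ => hP.smul_mem_rad' (hdA j) (hsmall j)
    calc (W i).valuation _ ≤ (W i).valuation c := mem_qrad.mp h1
      _ = (W i).valuation (ϖ i) ^ e i := (hR i).pow_eq.symm
      _ ≤ (W i).valuation (ϖ i) ^ n := pow_le_pow_right_of_le_one' (hR i).lt_one.le hn
  intro j hj hlt
  have := hB.nonunits_of_le hq hR i d' hd'A (fun j h => by simp only [hd', if_neg h]) n hn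
    hbound j hj hlt
  simpa only [hd', if_pos hj] using this

theorem RamBasis.repr_mem (hB : RamBasis A q W ϖ e π α g b) {z : F} (hz : z ∈ ball W) (j : J) :
    b.repr z j ∈ A :=
  (hB.mem_iff fun j => b.repr z j).mp (by rw [b.sum_repr z]; exact hz) j

/-- a sum of a function extended by zero from a subtype -/
theorem sum_dite_subtype {M : Type*} [AddCommMonoid M] (p : J → Prop) [DecidablePred p]
    [Fintype (Subtype p)] (f : Subtype p → M) : ∑ j, (if h : p j then f ⟨j, h⟩ else 0) = ∑ j : Subtype p, f j := by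
  classical
  have h1 := Finset.sum_subtype (F := inferInstance) (Finset.univ.filter p) (p := p) (by simp)
    (fun j => if h : p j then f ⟨j, h⟩ else 0)
  rw [Finset.sum_filter] at h1
  have h2 : ∑ j, (if p j then (if h : p j then f ⟨j, h⟩ else 0) else 0)
      = ∑ j, (if h : p j then f ⟨j, h⟩ else 0) := by
    refine Finset.sum_congr rfl fun j _ => ?_
    by_cases h : p j
    · rw [if_pos h]
    · rw [if_neg h, dif_neg h]
  rw [← h2, h1]
  refine Finset.sum_congr rfl fun j _ => ?_
  rw [dif_pos j.2]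

/-- **Coefficient congruences, fibre form.**  If `z ≡ ϖ_i^a ∑ τ_j g_j mod ϖ_i^(a+1)` at the
place `i` (the sum over the fibre `π = i`, `α = a`), then the coordinates of `z` of exponent `< a`
at `i` are in `𝔪_A` and those of exponent `a` are `≡ τ_j`. -/
theorem RamBasis.repr_congr_fibre (hB : RamBasis A q W ϖ e π α g b) (hq : IsUnif A q)
    (hR : ∀ i, IsRamified A q (W i) (ϖ i) (e i)) {z : F} (hz : z ∈ ball W) (i : ι) (a : ℕ)
    [Fintype {j // π j = i ∧ α j = a}]
    (ha : a < e i) (τ : {j // π j = i ∧ α j = a} → K) (hτ : ∀ j, τ j ∈ A)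
    (hclose : (W i).valuation (z - ϖ i ^ a * ∑ j, τ j • g j)
      ≤ (W i).valuation (ϖ i) ^ (a + 1)) :
    (∀ j, π j = i → α j < a → b.repr z j ∈ A.nonunits) ∧
      ∀ j : {j // π j = i ∧ α j = a}, b.repr z j - τ j ∈ A.nonunits := by
  classical
  set τ' : J → K := fun j => if h : π j = i ∧ α j = a then τ ⟨j, h⟩ else 0 with hτ'
  have hτ'A : ∀ j, τ' j ∈ A := by
    intro j
    simp only [hτ']
    split_ifs
    · exact hτ _
    · exact A.zero_mem
  have hτ'0 : ∀ j, π j ≠ i → τ' j = 0 := by
    intro j h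
    simp only [hτ']
    rw [dif_neg (fun h' => h h'.1)]
  have hsum : ∑ j, τ' j • (ϖ i ^ α j * g j) = ϖ i ^ a * ∑ j, τ j • g j := by
    rw [Finset.mul_sum, ← sum_dite_subtype (fun j => π j = i ∧ α j = a)
      (fun j => ϖ i ^ a * τ j • g j)]
    refine Finset.sum_congr rfl fun j _ => ?_
    by_cases h : π j = i ∧ α j = a
    · have e1 : ϖ i ^ α j = ϖ i ^ a := by rw [h.2]
      simp only [hτ', dif_pos h, e1, mul_smul_comm]
    · simp only [hτ', dif_neg h, zero_smul]
  have h := hB.repr_sub_nonunits hq hR hz i (a + 1) ha τ' hτ'A hτ'0 (by rw [hsum]; exact hclose)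
  refine ⟨fun j hj hlt => ?_, fun j => ?_⟩
  · have h1 := h j hj (Nat.lt_succ_of_lt hlt)
    have h2 : τ' j = 0 := by
      simp only [hτ']
      rw [dif_neg (fun h' => absurd h'.2 (Nat.ne_of_lt hlt))]
    rwa [h2, sub_zero] at h1
  · have h1 := h j j.2.1 (by rw [j.2.2]; exact Nat.lt_succ_self a)
    have h2 : τ' j = τ j := by
      simp only [hτ']
      rw [dif_pos j.2]
    rwa [h2] at h1

end rambasis

/-! ### The matrix of an integral element modulo `𝔪_A` -/

section core

variable {A : ValuationSubring K} {res : A →+* k} {W : ι → ValuationSubring F}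
  {Ft : ι → Type*} [∀ i, Field (Ft i)] [∀ i, Algebra k (Ft i)] {red : ∀ i, W i →+* Ft i}
  {q : K} {ϖ : ι → F} {e : ι → ℕ}
  {J : Type*} [Fintype J] {π : J → ι} {α : J → ℕ} {g : J → F} {b : Basis J K F}

/-- entries between different places are in `𝔪_A` -/
theorem RamBasis.repr_mul_nonunits_of_ne (hB : RamBasis A q W ϖ e π α g b) (hq : IsUnif A q)
    (hR : ∀ i, IsRamified A q (W i) (ϖ i) (e i)) {u : F} (hu : u ∈ ball W) (l' l : J)
    (h : π l' ≠ π l) : b.repr (u * b l) l' ∈ A.nonunits := by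
  have hz : u * b l ∈ ball W := (ball W).mul_mem hu (hB.b_mem l)
  have h0 := hB.repr_sub_nonunits hq hR hz (π l') (e (π l')) le_rfl (fun _ => 0)
    (fun _ => A.zero_mem) (fun _ _ => rfl) ?_ l' rfl (hB.α_lt l')
  · simpa using h0
  · simp only [zero_smul, Finset.sum_const_zero, sub_zero]
    rw [(hR (π l')).pow_eq, map_mul]
    have h1 := mem_qrad.mp (hB.off l (π l') h)
    have h2 : (W (π l')).valuation u ≤ 1 :=
      ((W _).valuation_le_one_iff _).mpr (mem_ball.mp hu _)
    calc (W (π l')).valuation u * (W (π l')).valuation (b l)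
        ≤ 1 * (W (π l')).valuation (algebraMap K F q) := mul_le_mul' h2 h1
      _ = (W (π l')).valuation (algebraMap K F q) := one_mul _

/-- entries inside one place: strictly lower exponents give `𝔪_A`, equal exponents give the
matrix of the reduction. -/
theorem RamBasis.repr_mul_fibre (hF : RedFam A res W Ft red)
    (hB : RamBasis A q W ϖ e π α g b) (hq : IsUnif A q)
    (hR : ∀ i, IsRamified A q (W i) (ϖ i) (e i)) {u : F} (hu : u ∈ ball W) (i : ι) (a : ℕ)
    [Fintype {j // π j = i ∧ α j = a}]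
    (ha : a < e i) (βia : Basis {j // π j = i ∧ α j = a} k (Ft i))
    (hβ : ∀ (j : {j // π j = i ∧ α j = a}) (hj : g j ∈ W i), βia j = red i ⟨g j, hj⟩)
    (l : {j // π j = i ∧ α j = a}) :
    (∀ j, π j = i → α j < a → b.repr (u * b l) j ∈ A.nonunits) ∧
      ∀ j : {j // π j = i ∧ α j = a}, ∃ hmem : b.repr (u * b l) j ∈ A,
        res ⟨_, hmem⟩ = βia.repr (red i ⟨u, mem_ball.mp hu i⟩ * βia l) j := by
  classical
  have hui : u ∈ W i := mem_ball.mp hu i
  set ρ := red i ⟨u, hui⟩ with hρ
  have hz : u * b l ∈ ball W := (ball W).mul_mem hu (hB.b_mem l)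
  choose γ hγ using fun j => hF.res_surj (βia.repr (ρ * βia l) j)
  have hgW : ∀ j : {j // π j = i ∧ α j = a}, g j ∈ W i := fun j => by
    have := hB.g_mem j.1
    rwa [j.2.1] at this
  obtain ⟨t, ht1, ht2⟩ := (hF.isRedSystem i).exists_comb γ
    (fun j => (⟨g j, hgW j⟩ : (W i).toSubring))
  have ht3 : red i ⟨t, t.2⟩ = ρ * βia l := by
    have h1 : (redSub (W i) (red i)).toAddMonoidHom t = red i ⟨t, t.2⟩ := rfl
    rw [← h1, ht2, ← βia.sum_repr (ρ * βia l)]
    refine Finset.sum_congr rfl fun j _ => ?_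
    rw [hγ j, hβ j (hgW j)]
    rfl
  have hug : u * g l ∈ W i := (W i).mul_mem _ _ hui (hgW l)
  have hred0 : (W i).valuation (u * g l - t) < 1 := by
    have h1 : red i (⟨u * g l, hug⟩ - ⟨t, t.2⟩) = 0 := by
      rw [map_sub, ht3, sub_eq_zero]
      have h2 : (⟨u * g l, hug⟩ : W i) = ⟨u, hui⟩ * ⟨g l, hgW l⟩ := rfl
      rw [h2, map_mul, ← hβ l (hgW l)]
    exact (hF.red_ker i _).mp h1
  have hclose : (W i).valuation (u * b l - ϖ i ^ a * ∑ j, ((γ j : A) : K) • g j)
      ≤ (W i).valuation (ϖ i) ^ (a + 1) := by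
    rw [← ht1]
    have h1 : u * b l - ϖ i ^ a * (t : F)
        = u * (b l - ϖ i ^ a * g l) + ϖ i ^ a * (u * g l - t) := by ring
    rw [h1]
    refine (Valuation.map_add _ _ _).trans (max_le ?_ ?_)
    · have h2 := hB.near l.1
      rw [l.2.1, l.2.2] at h2
      have h3 : (W i).valuation u ≤ 1 := ((W i).valuation_le_one_iff _).mpr hui
      rw [map_mul]
      calc (W i).valuation u * (W i).valuation (b l - ϖ i ^ a * g l)
          ≤ 1 * (W i).valuation (algebraMap K F q) := mul_le_mul' h3 (mem_qrad.mp h2)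
        _ = (W i).valuation (algebraMap K F q) := one_mul _
        _ = (W i).valuation (ϖ i) ^ e i := (hR i).pow_eq.symm
        _ ≤ (W i).valuation (ϖ i) ^ (a + 1) :=
            pow_le_pow_right_of_le_one' (hR i).lt_one.le ha
    · rw [map_mul, map_pow, pow_succ]
      exact mul_le_mul' le_rfl ((hR i).gen _ hred0)
  obtain ⟨h1, h2⟩ := hB.repr_congr_fibre hq hR hz i a ha (fun j => ((γ j : A) : K))
    (fun j => (γ j).2) hclose
  refine ⟨h1, fun j => ?_⟩
  have hmem : b.repr (u * b l) j ∈ A := hB.repr_mem hz j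
  refine ⟨hmem, ?_⟩
  have h3 : res (⟨b.repr (u * b l) j, hmem⟩ - γ j) = 0 := (hF.res_ker _).mpr (h2 j)
  rw [map_sub, sub_eq_zero] at h3
  rw [h3, hγ]

/-- **Norm-reduction formula with ramification exponents**, on an adapted basis. -/
theorem RamBasis.norm_red [Fintype ι] [DecidableEq ι] [DecidableEq J]
    (hF : RedFam A res W Ft red)
    (hB : RamBasis A q W ϖ e π α g b) (hq : IsUnif A q)
    (hR : ∀ i, IsRamified A q (W i) (ϖ i) (e i))
    (βb : ∀ i a, a < e i → Basis {j // π j = i ∧ α j = a} k (Ft i))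
    (hβ : ∀ i a (ha : a < e i) (j : {j // π j = i ∧ α j = a}) (hj : g j ∈ W i),
      βb i a ha j = red i ⟨g j, hj⟩)
    {u : F} (hu : u ∈ ball W) :
    ∃ hN : Algebra.norm K u ∈ A, res ⟨Algebra.norm K u, hN⟩
      = ∏ i, Algebra.norm k (red i ⟨u, mem_ball.mp hu i⟩) ^ e i := by
  classical
  have hzl : ∀ l, u * b l ∈ ball W := fun l => (ball W).mul_mem hu (hB.b_mem l)
  have hent : ∀ l' l, Algebra.leftMulMatrix b u l' l ∈ A := by
    intro l' l
    rw [Algebra.leftMulMatrix_eq_repr_mul]
    exact hB.repr_mem (hzl l) l'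
  let M0 : Matrix J J A := fun l' l => ⟨Algebra.leftMulMatrix b u l' l, hent l' l⟩
  have hM : Algebra.leftMulMatrix b u = M0.map A.subtype := by
    ext l' l
    rfl
  have hdet : Algebra.norm K u = A.subtype (M0.det) := by
    rw [Algebra.norm_eq_matrix_det b u, hM]
    exact (RingHom.map_det A.subtype M0).symm
  have hN : Algebra.norm K u ∈ A := by rw [hdet]; exact (M0.det).2
  refine ⟨hN, ?_⟩
  have e1 : (⟨Algebra.norm K u, hN⟩ : A) = M0.det := Subtype.ext hdet
  rw [e1, RingHom.map_det]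
  set Mb : Matrix J J k := res.mapMatrix M0 with hMb
  have hMb_apply : ∀ l' l, Mb l' l = res ⟨b.repr (u * b l) l', hB.repr_mem (hzl l) l'⟩ := by
    intro l' l
    show res (M0 l' l) = _
    congr 1
    apply Subtype.ext
    exact Algebra.leftMulMatrix_eq_repr_mul b u l' l
  have hres0 : ∀ l' l, b.repr (u * b l) l' ∈ A.nonunits → Mb l' l = 0 := by
    intro l' l h
    rw [hMb_apply]
    exact (hF.res_ker _).mpr h
  have hZ1 : ∀ l' l, π l' ≠ π l → Mb l' l = 0 := fun l' l h =>
    hres0 l' l (hB.repr_mul_nonunits_of_ne hq hR hu l' l h)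
  rw [det_eq_prod_of_fibres Mb π hZ1]
  refine Finset.prod_congr rfl fun i _ => ?_
  have hαi : ∀ s : {l // π l = i}, α s.1 < e i := fun s => by
    have := hB.α_lt s.1
    rwa [s.2] at this
  refine det_eq_pow_of_filtration (Mb.toSquareBlock π i) (e i) (fun s => α s.1) hαi _ ?_ ?_
  · -- strictly lower exponents
    intro s' s hlt
    show Mb s'.1 s.1 = 0
    apply hres0
    have h := (hB.repr_mul_fibre hF hq hR hu i (α s.1) (hαi s) (βb i (α s.1) (hαi s))
      (hβ i (α s.1) (hαi s)) ⟨s.1, s.2, rfl⟩).1 s'.1 s'.2 hlt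
    exact h
  · -- the diagonal blocks
    intro a ha
    let φ : {s : {l // π l = i} // α s.1 = a} ≃ {l // π l = i ∧ α l = a} :=
      Equiv.subtypeSubtypeEquivSubtypeInter (fun l => π l = i) (fun l => α l = a)
    have hblock : (Mb.toSquareBlock π i).toSquareBlock (fun s => α s.1) a
        = (Algebra.leftMulMatrix (βb i a ha) (red i ⟨u, mem_ball.mp hu i⟩)).submatrix φ φ := by
      ext s' s
      show Mb s'.1.1 s.1.1 = _
      rw [Matrix.submatrix_apply, Algebra.leftMulMatrix_eq_repr_mul]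
      obtain ⟨hmem, h⟩ := (hB.repr_mul_fibre hF hq hR hu i a ha (βb i a ha) (hβ i a ha)
        (φ s)).2 (φ s')
      rw [← h, hMb_apply]
      rfl
    rw [hblock, Matrix.det_submatrix_equiv_self, ← Algebra.norm_eq_matrix_det]

end core

/-! ### The index type `(i, a, m)`, `a < e i`, `m < f i` -/

/-- the triples `(i, a, m)` with `a < e i`, `m < f i` -/
abbrev RamIdx (e f : ι → ℕ) : Type _ := Σ i : ι, Fin (e i) × Fin (f i)

theorem card_ramIdx [Fintype ι] (e f : ι → ℕ) :
    Fintype.card (RamIdx e f) = ∑ i, e i * f i := by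
  simp [RamIdx, Fintype.card_sigma]

/-- the fibre of `(i, a)` in `RamIdx e f` is `Fin (f i)` -/
def ramFibreEquiv (e f : ι → ℕ) (i : ι) (a : ℕ) (ha : a < e i) :
    Fin (f i) ≃ {l : RamIdx e f // l.1 = i ∧ (l.2.1 : ℕ) = a} where
  toFun m := ⟨⟨i, (⟨a, ha⟩, m)⟩, rfl, rfl⟩
  invFun l := Fin.cast (congrArg f l.2.1) l.1.2.2
  left_inv m := by simp
  right_inv := by
    rintro ⟨⟨i', a', m'⟩, h1, h2⟩
    dsimp only at h1 h2
    subst h1
    apply Subtype.ext
    dsimp only
    congr 1
    refine Prod.ext (Fin.ext h2.symm) ?_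
    simp

section main

variable {A : ValuationSubring K} {res : A →+* k} {W : ι → ValuationSubring F}
  {Ft : ι → Type*} [∀ i, Field (Ft i)] [∀ i, Algebra k (Ft i)] {red : ∀ i, W i →+* Ft i}
  {q : K} {ϖ : ι → F} {e : ι → ℕ}

/-- **Norm-reduction formula with ramification exponents.**  `F / K` finite, `A ⊂ K` with
uniformiser `q`, `W i` incomparable discrete extensions of `A` to `F` with reductions
`red i : W i ->> Ft i` and ramification indices `e i`, `[F : K] ≤ ∑ e_i [Ft i : k]`.  Then for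
`u ∈ ⋂ W i`: `Nm u ∈ A` and `res (Nm u) = ∏ Nm (red_i u) ^ (e i)`. -/
theorem norm_red_ram [Fintype ι] [Nonempty ι] [FiniteDimensional K F]
    [∀ i, FiniteDimensional k (Ft i)] (hF : RedFam A res W Ft red) (hW : Incomparable W)
    (hq : IsUnif A q) (hR : ∀ i, IsRamified A q (W i) (ϖ i) (e i))
    (hdeg : finrank K F ≤ ∑ i, e i * finrank k (Ft i)) {u : F} (hu : u ∈ ball W) :
    ∃ hN : Algebra.norm K u ∈ A, res ⟨Algebra.norm K u, hN⟩
      = ∏ i, Algebra.norm k (red i ⟨u, mem_ball.mp hu i⟩) ^ e i := by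
  classical
  set f : ι → ℕ := fun i => finrank k (Ft i) with hf
  let β : ∀ i, Basis (Fin (f i)) k (Ft i) := fun i => Module.finBasis k (Ft i)
  choose G hG using fun i (m : Fin (f i)) => hF.red_surj i (β i m)
  let π : RamIdx e f → ι := fun l => l.1
  let α : RamIdx e f → ℕ := fun l => (l.2.1 : ℕ)
  let g : RamIdx e f → F := fun l => ((G l.1 l.2.2 : W l.1) : F)
  -- the fibres
  have hgW : ∀ i a (j : {l : RamIdx e f // π l = i ∧ α l = a}), g j ∈ W i := by
    rintro i a ⟨⟨i', a', m'⟩, h1, h2⟩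
    dsimp only [π] at h1
    subst h1
    exact (G i' m').2
  have hgred : ∀ i a (ha : a < e i) (j : {l : RamIdx e f // π l = i ∧ α l = a})
      (hj : g j ∈ W i), red i ⟨g j, hj⟩ = β i ((ramFibreEquiv e f i a ha).symm j) := by
    rintro i a ha ⟨⟨i', a', m'⟩, h1, h2⟩ hj
    dsimp only [π] at h1
    subst h1
    have e1 : (ramFibreEquiv e f i' a ha).symm ⟨⟨i', (a', m')⟩, ⟨rfl, h2⟩⟩ = m' := by
      simp [ramFibreEquiv]
    rw [e1, ← hG i' m']
  have hg : ∀ i a, IsOrthoFamily A (W i).toSubring (vrad (W i))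
      (fun j : {l : RamIdx e f // π l = i ∧ α l = a} => g j) := by
    intro i a
    by_cases ha : a < e i
    · refine hF.isOrthoFamily_of_red i _ (hgW i a) ?_
      have h1 : (fun j : {l : RamIdx e f // π l = i ∧ α l = a} => red i ⟨g j, hgW i a j⟩)
          = (β i) ∘ (ramFibreEquiv e f i a ha).symm := by
        funext j
        exact hgred i a ha j _
      rw [h1]
      exact (β i).linearIndependent.comp _ (ramFibreEquiv e f i a ha).symm.injective
    · -- empty fibre
      have hemp : IsEmpty {l : RamIdx e f // π l = i ∧ α l = a} := by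
        refine ⟨fun j => ha ?_⟩
        obtain ⟨⟨i', a', m'⟩, h1, h2⟩ := j
        dsimp only [π, α] at h1 h2
        subst h1
        rw [← h2]
        exact a'.isLt
      refine ⟨fun j => (hemp.false j).elim, fun c _ _ j => (hemp.false j).elim⟩
  have hα : ∀ l : RamIdx e f, α l < e (π l) := fun l => l.2.1.isLt
  have hcard : finrank K F ≤ Fintype.card (RamIdx e f) := by
    rw [card_ramIdx]; exact hdeg
  obtain ⟨b, -, hb2, hb3, hb4, -⟩ := exists_basis_ram' (π := π) (α := α) (g := g) hW hq hR hα hg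
    hcard
  have hB : RamBasis A q W ϖ e π α g b := ⟨hα, hg, hb2, hb3, hb4⟩
  exact hB.norm_red hF hq hR
    (fun i a ha => (β i).reindex (ramFibreEquiv e f i a ha))
    (fun i a ha j hj => by
      rw [Basis.reindex_apply]
      exact (hgred i a ha j hj).symm) hu

end main

end Fermat.Agent.GL.MultiVal
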