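/-
GATE-L / L1-ABS part 4 (helper90): the VERTICAL part of the norm formula with ramification.

Setting of `RamNorm.norm_red_ram` (`F / K` finite, `A ⊂ K` with uniformiser `q`, `W i` incomparable
discrete extensions with uniformisers `ϖ i`, `|ϖ i|^(e i) = |q|`, reductions onto `Ft i`,
`[F : K] ≤ ∑ e_i f_i`, `f_i = [Ft i : k]`).  For `u ∈ Fˣ` with `|u|_i = |ϖ i|^(n i)`:

  `|Nm_{F/K} u| = |q| ^ (∑ n_i f_i)`,   i.e.  `v (Nm u) = ∑ f_i ord_i u`.

* `exists_ramBasis` : the adapted basis (shared with the norm-reduction formula).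
* `RamBasis.norm_mem`, `RamBasis.valuation_norm_unit` : units of `⋂ W i` have unit norm.
* `exists_unif_at` : by strong approximation, an element which is a uniformiser at `i₀` and a unit
  at the other places.
* `RamBasis.valuation_norm_unif` : its norm has valuation `|q|^(card fibre (i₀, 0))`.
* `valuation_norm_ram` : the vertical formula.
-/
import Mathlib
import Fermat.Agent.GL.MultiVal.RamNorm

set_option autoImplicit false

open Module

namespace Fermat.Agent.GL.MultiVal

open Fermat.Agent.GK.MultiVal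

variable {K F k : Type*} [Field K] [Field F] [Algebra K F] [Field k] {ι : Type*}

/-! ### Determinants with integral entries -/

theorem det_mem_of_entries {J : Type*} [Fintype J] [DecidableEq J] (A : ValuationSubring K)
    (M : Matrix J J K) (h : ∀ i j, M i j ∈ A) : M.det ∈ A := by
  let M0 : Matrix J J A := fun i j => ⟨M i j, h i j⟩
  have hM : M = M0.map A.subtype := by
    ext i j
    rfl
  rw [hM]
  have := RingHom.map_det A.subtype M0
  rw [RingHom.mapMatrix_apply] at this
  rw [← this]
  exact (M0.det).2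

section rambasis

variable {A : ValuationSubring K} {q : K} {W : ι → ValuationSubring F} {ϖ : ι → F} {e : ι → ℕ}
  {J : Type*} [Fintype J] {π : J → ι} {α : J → ℕ} {g : J → F} {b : Basis J K F}

theorem RamBasis.norm_mem (hB : RamBasis A q W ϖ e π α g b) {u : F} (hu : u ∈ ball W) :
    Algebra.norm K u ∈ A := by
  classical
  rw [Algebra.norm_eq_matrix_det b u]
  refine det_mem_of_entries A _ fun l' l => ?_
  rw [Algebra.leftMulMatrix_eq_repr_mul]
  exact hB.repr_mem ((ball W).mul_mem hu (hB.b_mem l)) l'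

/-- units of the semilocal ring have unit norm -/
theorem RamBasis.valuation_norm_unit [FiniteDimensional K F] (hB : RamBasis A q W ϖ e π α g b)
    {u : F} (hu0 : u ≠ 0) (hu : ∀ i, (W i).valuation u = 1) :
    A.valuation (Algebra.norm K u) = 1 := by
  have h1 : u ∈ ball W := mem_ball.mpr fun i =>
    ((W i).valuation_le_one_iff _).mp (hu i).le
  have h2 : u⁻¹ ∈ ball W := mem_ball.mpr fun i => by
    rw [← ValuationSubring.valuation_le_one_iff, map_inv₀, hu i, inv_one]
  have h3 : A.valuation (Algebra.norm K u) ≤ 1 :=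
    (A.valuation_le_one_iff _).mpr (hB.norm_mem h1)
  have h4 : A.valuation (Algebra.norm K u⁻¹) ≤ 1 :=
    (A.valuation_le_one_iff _).mpr (hB.norm_mem h2)
  have h5 : A.valuation (Algebra.norm K u) * A.valuation (Algebra.norm K u⁻¹) = 1 := by
    rw [← map_mul, ← map_mul, mul_inv_cancel₀ hu0, map_one, map_one]
  refine le_antisymm h3 ?_
  calc (1 : _) = A.valuation (Algebra.norm K u) * A.valuation (Algebra.norm K u⁻¹) := h5.symm
    _ ≤ A.valuation (Algebra.norm K u) * 1 := mul_le_mul' le_rfl h4
    _ = A.valuation (Algebra.norm K u) := mul_one _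

/-- the norm of an element which is a uniformiser at `i₀` and a unit at the other places -/
theorem RamBasis.valuation_norm_unif [FiniteDimensional K F] (hB : RamBasis A q W ϖ e π α g b)
    (hq : IsUnif A q) (hR : ∀ i, IsRamified A q (W i) (ϖ i) (e i)) {i₀ : ι} {t : F}
    (ht : (W i₀).valuation t = (W i₀).valuation (ϖ i₀))
    (ht' : ∀ j, j ≠ i₀ → (W j).valuation t = 1) :
    A.valuation (Algebra.norm K t)
      = A.valuation q ^ Nat.card {l // π l = i₀ ∧ α l = 0} := by
  classical
  have hϖ0 := (hR i₀).ne_zero hq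
  have hvϖ : (W i₀).valuation (ϖ i₀) ≠ 0 := (Valuation.ne_zero_iff _).mpr hϖ0
  have ht0 : t ≠ 0 := by
    rintro rfl
    rw [map_zero] at ht
    exact hvϖ ht.symm
  have he1 : 1 ≤ e i₀ := (hR i₀).e_pos hq
  have hqϖ : (W i₀).valuation (algebraMap K F q) ≤ (W i₀).valuation (ϖ i₀) := by
    rw [← (hR i₀).pow_eq]
    calc (W i₀).valuation (ϖ i₀) ^ e i₀ ≤ (W i₀).valuation (ϖ i₀) ^ 1 :=
          pow_le_pow_right_of_le_one' (hR i₀).lt_one.le he1
      _ = (W i₀).valuation (ϖ i₀) := pow_one _
  have htb : t ∈ ball W := mem_ball.mpr fun j => by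
    rw [← ValuationSubring.valuation_le_one_iff]
    by_cases hj : j = i₀
    · subst hj; rw [ht]; exact (hR j).lt_one.le
    · exact (ht' j hj).le
  have hq0 : q ≠ 0 := hq.ne_zero
  set s : J → ℕ := fun l => if π l = i₀ ∧ α l = 0 then 1 else 0 with hs
  set M := Algebra.leftMulMatrix b t with hM
  set M' := Algebra.leftMulMatrix b t⁻¹ with hM'
  have hMM' : M * M' = 1 := by
    rw [hM, hM', ← map_mul, mul_inv_cancel₀ ht0, map_one]
  set D : Matrix J J K := Matrix.diagonal (fun l => q ^ s l) with hD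
  set Dinv : Matrix J J K := Matrix.diagonal (fun l => (q ^ s l)⁻¹) with hDinv
  have hDD : D * Dinv = 1 := by
    rw [hD, hDinv, Matrix.diagonal_mul_diagonal]
    have : (fun l => q ^ s l * (q ^ s l)⁻¹) = fun _ : J => (1 : K) := by
      funext l
      exact mul_inv_cancel₀ (pow_ne_zero _ hq0)
    rw [this, Matrix.diagonal_one]
  have hDD' : Dinv * D = 1 := by
    rw [hD, hDinv, Matrix.diagonal_mul_diagonal]
    have : (fun l => (q ^ s l)⁻¹ * q ^ s l) = fun _ : J => (1 : K) := by
      funext l
      exact inv_mul_cancel₀ (pow_ne_zero _ hq0)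
    rw [this, Matrix.diagonal_one]
  set T := Dinv * M with hT
  set T' := M' * D with hT'
  have hTT' : T * T' = 1 := by
    rw [hT, hT', Matrix.mul_assoc, ← Matrix.mul_assoc M, hMM', Matrix.one_mul, hDD']
  have hMDT : M = D * T := by
    rw [hT, ← Matrix.mul_assoc, hDD, Matrix.one_mul]
  -- entries of `M`
  have hzl : ∀ l, t * b l ∈ ball W := fun l => (ball W).mul_mem htb (hB.b_mem l)
  have hMent : ∀ l' l, M l' l = b.repr (t * b l) l' := fun l' l =>
    Algebra.leftMulMatrix_eq_repr_mul b t l' l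
  have hclaim1 : ∀ l' l, π l' = i₀ → α l' = 0 → M l' l ∈ A.nonunits := by
    intro l' l h1 h2
    rw [hMent]
    have h0 := hB.repr_sub_nonunits hq hR (hzl l) i₀ 1 he1 (fun _ => 0)
      (fun _ => A.zero_mem) (fun _ _ => rfl) ?_ l' h1 (by rw [h2]; exact Nat.one_pos)
    · simpa using h0
    · simp only [zero_smul, Finset.sum_const_zero, sub_zero, pow_one]
      rw [map_mul, ht]
      have h3 : (W i₀).valuation (b l) ≤ 1 :=
        ((W i₀).valuation_le_one_iff _).mpr (mem_ball.mp (hB.b_mem l) i₀)
      calc (W i₀).valuation (ϖ i₀) * (W i₀).valuation (b l)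
          ≤ (W i₀).valuation (ϖ i₀) * 1 := mul_le_mul' le_rfl h3
        _ = (W i₀).valuation (ϖ i₀) := mul_one _
  have hTent : ∀ l' l, T l' l ∈ A := by
    intro l' l
    rw [hT, hDinv, Matrix.diagonal_mul]
    have hMA : M l' l ∈ A := by
      rw [hMent]; exact hB.repr_mem (hzl l) l'
    by_cases h : π l' = i₀ ∧ α l' = 0
    · have h1 := hclaim1 l' l h.1 h.2
      have h2 : s l' = 1 := by simp only [hs, if_pos h]
      rw [h2, pow_one, ← ValuationSubring.valuation_le_one_iff, map_mul, map_inv₀]
      have hvq : A.valuation q ≠ 0 := (Valuation.ne_zero_iff _).mpr hq0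
      rw [inv_mul_le_iff₀ (zero_lt_iff.mpr hvq), mul_one]
      exact hq.gen _ h1
    · have h2 : s l' = 0 := by simp only [hs, if_neg h]
      rw [h2, pow_zero, inv_one, one_mul]
      exact hMA
  -- entries of `T'`
  have hbl : ∀ l, ¬ (π l = i₀ ∧ α l = 0) → (W i₀).valuation (b l) ≤ (W i₀).valuation (ϖ i₀) := by
    intro l h
    by_cases h1 : π l = i₀
    · have h2 : α l ≠ 0 := fun h' => h ⟨h1, h'⟩
      have h3 := hB.near l
      rw [h1] at h3
      have h4 : b l = (b l - ϖ i₀ ^ α l * g l) + ϖ i₀ ^ α l * g l := by ring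
      rw [h4]
      refine (Valuation.map_add _ _ _).trans (max_le ((mem_qrad.mp h3).trans hqϖ) ?_)
      rw [map_mul, map_pow]
      have h5 : (W i₀).valuation (g l) ≤ 1 := by
        have := hB.g_mem l
        rw [h1] at this
        exact ((W i₀).valuation_le_one_iff _).mpr this
      calc (W i₀).valuation (ϖ i₀) ^ α l * (W i₀).valuation (g l)
          ≤ (W i₀).valuation (ϖ i₀) ^ 1 * 1 :=
            mul_le_mul' (pow_le_pow_right_of_le_one' (hR i₀).lt_one.le
              (Nat.one_le_iff_ne_zero.mpr h2)) h5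
        _ = (W i₀).valuation (ϖ i₀) := by rw [pow_one, mul_one]
    · exact (mem_qrad.mp (hB.off l i₀ (fun h' => h1 h'.symm))).trans hqϖ
  have hT'mem : ∀ l, (q ^ s l) • (t⁻¹ * b l) ∈ ball W := by
    intro l
    rw [mem_ball]
    intro j
    rw [← ValuationSubring.valuation_le_one_iff, Algebra.smul_def, map_pow (algebraMap K F),
      map_mul, map_mul, map_inv₀, map_pow]
    have hqj : (W j).valuation (algebraMap K F q) ≤ 1 := ((hR j).valuation_q_lt_one hq).le
    have hbj : (W j).valuation (b l) ≤ 1 :=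
      ((W j).valuation_le_one_iff _).mpr (mem_ball.mp (hB.b_mem l) j)
    by_cases hj : j = i₀
    · subst hj
      rw [ht]
      by_cases h : π l = j ∧ α l = 0
      · have h2 : s l = 1 := by simp only [hs, if_pos h]
        rw [h2, pow_one, ← (hR j).pow_eq]
        obtain ⟨e', he'⟩ : ∃ e', e j = e' + 1 := ⟨e j - 1, by omega⟩
        rw [he', pow_succ]
        rw [mul_assoc, mul_inv_cancel_left₀ hvϖ]
        calc (W j).valuation (ϖ j) ^ e' * (W j).valuation (b l)
            ≤ 1 * 1 := mul_le_mul' (pow_le_one₀ zero_le (hR j).lt_one.le) hbj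
          _ = 1 := one_mul _
      · have h2 : s l = 0 := by simp only [hs, if_neg h]
        rw [h2, pow_zero, one_mul, inv_mul_le_iff₀ (zero_lt_iff.mpr hvϖ), mul_one]
        exact hbl l h
    · rw [ht' j hj, inv_one, one_mul]
      calc (W j).valuation (algebraMap K F q) ^ s l * (W j).valuation (b l)
          ≤ 1 * 1 := mul_le_mul' (pow_le_one₀ zero_le hqj) hbj
        _ = 1 := one_mul _
  have hT'ent : ∀ l' l, T' l' l ∈ A := by
    intro l' l
    rw [hT', hD, Matrix.mul_diagonal, hM', Algebra.leftMulMatrix_eq_repr_mul]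
    have h1 := hB.repr_mem (hT'mem l) l'
    rw [map_smul, Finsupp.smul_apply, smul_eq_mul, mul_comm] at h1
    exact h1
  -- determinants
  have hdT : A.valuation T.det ≤ 1 :=
    (A.valuation_le_one_iff _).mpr (det_mem_of_entries A T hTent)
  have hdT' : A.valuation T'.det ≤ 1 :=
    (A.valuation_le_one_iff _).mpr (det_mem_of_entries A T' hT'ent)
  have hdd : A.valuation T.det * A.valuation T'.det = 1 := by
    rw [← map_mul, ← Matrix.det_mul, hTT', Matrix.det_one, map_one]
  have hdT1 : A.valuation T.det = 1 := by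
    refine le_antisymm hdT ?_
    calc (1 : _) = A.valuation T.det * A.valuation T'.det := hdd.symm
      _ ≤ A.valuation T.det * 1 := mul_le_mul' le_rfl hdT'
      _ = A.valuation T.det := mul_one _
  have hsum : ∑ l, s l = Nat.card {l // π l = i₀ ∧ α l = 0} := by
    rw [Nat.card_eq_fintype_card, Fintype.card_subtype]
    simp only [hs]
    rw [Finset.sum_boole]
    rfl
  rw [Algebra.norm_eq_matrix_det b t, ← hM, hMDT, Matrix.det_mul, hD, Matrix.det_diagonal,
    Finset.prod_pow_eq_pow_sum, map_mul, hdT1, mul_one, map_pow, hsum]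

end rambasis

/-! ### Local uniformisers in the semilocal ring -/

section unif

variable {A : ValuationSubring K} {q : K} {W : ι → ValuationSubring F} {ϖ : ι → F} {e : ι → ℕ}

/-- an element which is a uniformiser at `i₀` and a unit at all the other places -/
theorem exists_unif_at [Fintype ι] (hW : Incomparable W) (hq : IsUnif A q)
    (hR : ∀ i, IsRamified A q (W i) (ϖ i) (e i)) (i₀ : ι) :
    ∃ t : F, (W i₀).valuation t = (W i₀).valuation (ϖ i₀) ∧
      ∀ j, j ≠ i₀ → (W j).valuation t = 1 := by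
  classical
  set c : F := algebraMap K F q ^ 2 with hc
  have hN : ∀ i x, (W i).valuation x < 1 →
      (W i).valuation (x ^ ((∑ i, e i) * 2)) ≤ (W i).valuation c := by
    intro i x hx
    have h1 := IsRamified.exists_pow_le hR i x hx
    have h2 : (W i).valuation (x ^ ((∑ i, e i) * 2)) = (W i).valuation (x ^ ∑ i, e i) ^ 2 := by
      rw [pow_mul, map_pow]
    have h3 : (W i).valuation c = (W i).valuation (algebraMap K F q) ^ 2 := by
      rw [hc, map_pow]
    rw [h2, h3]
    exact pow_le_pow_left' h1 2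
  have hc1 : ∀ i, (W i).valuation c < (W i).valuation (ϖ i) := by
    intro i
    have hvϖ : (W i).valuation (ϖ i) ≠ 0 := (Valuation.ne_zero_iff _).mpr ((hR i).ne_zero hq)
    have he1 : 1 ≤ e i := (hR i).e_pos hq
    rw [hc, map_pow, ← (hR i).pow_eq, ← pow_mul]
    calc (W i).valuation (ϖ i) ^ (e i * 2) ≤ (W i).valuation (ϖ i) ^ 2 :=
          pow_le_pow_right_of_le_one' (hR i).lt_one.le (by omega)
      _ = (W i).valuation (ϖ i) * (W i).valuation (ϖ i) := pow_two _
      _ < (W i).valuation (ϖ i) * 1 :=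
          mul_lt_mul_of_pos_left (hR i).lt_one (zero_lt_iff.mpr hvϖ)
      _ = (W i).valuation (ϖ i) := mul_one _
  obtain ⟨x, -, hx⟩ := exists_approx_mod hW c ((∑ i, e i) * 2) hN
    (fun i => if i = i₀ then ϖ i₀ else 1) (fun i => by
      by_cases h : i = i₀
      · rw [if_pos h, h]
        exact ((W i₀).valuation_le_one_iff _).mp (hR i₀).lt_one.le
      · rw [if_neg h]
        exact one_mem _)
  refine ⟨x, ?_, fun j hj => ?_⟩
  · have h := hx i₀
    rw [if_pos rfl] at h
    have h1 : x = ϖ i₀ + (x - ϖ i₀) := by ring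
    rw [h1]
    exact Valuation.map_add_eq_of_lt_left _ (lt_of_le_of_lt h (hc1 i₀))
  · have h := hx j
    rw [if_neg hj] at h
    have h1 : x = 1 + (x - 1) := by ring
    rw [h1]
    exact (W j).valuation.map_one_add_of_lt (lt_of_le_of_lt h ((hc1 j).trans (hR j).lt_one))

end unif

/-! ### The adapted basis and the vertical formula -/

section main

variable {A : ValuationSubring K} {res : A →+* k} {W : ι → ValuationSubring F}
  {Ft : ι → Type*} [∀ i, Field (Ft i)] [∀ i, Algebra k (Ft i)] {red : ∀ i, W i →+* Ft i}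
  {q : K} {ϖ : ι → F} {e : ι → ℕ}

/-- **Existence of the adapted basis**: in the equality case `[F : K] ≤ ∑ e_i f_i` there is a
`K`-basis of `F` indexed by the triples `(i, a, m)` adapted to the places and their
filtrations, whose fibres `(i, a)` lift `k`-bases of the residue fields. -/
theorem exists_ramBasis [Fintype ι] [Nonempty ι] [FiniteDimensional K F]
    [∀ i, FiniteDimensional k (Ft i)] (hF : RedFam A res W Ft red) (hW : Incomparable W)
    (hq : IsUnif A q) (hR : ∀ i, IsRamified A q (W i) (ϖ i) (e i))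
    (hdeg : finrank K F ≤ ∑ i, e i * finrank k (Ft i)) :
    ∃ (g : RamIdx e (fun i => finrank k (Ft i)) → F)
      (b : Basis (RamIdx e (fun i => finrank k (Ft i))) K F),
      RamBasis A q W ϖ e (fun l => l.1) (fun l => (l.2.1 : ℕ)) g b := by
  classical
  set f : ι → ℕ := fun i => finrank k (Ft i) with hf
  let β : ∀ i, Basis (Fin (f i)) k (Ft i) := fun i => Module.finBasis k (Ft i)
  choose G hG using fun i (m : Fin (f i)) => hF.red_surj i (β i m)
  let π : RamIdx e f → ι := fun l => l.1
  let α : RamIdx e f → ℕ := fun l => (l.2.1 : ℕ)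
  let g : RamIdx e f → F := fun l => ((G l.1 l.2.2 : W l.1) : F)
  have hgW : ∀ i a (j : {l : RamIdx e f // π l = i ∧ α l = a}), g j ∈ W i := by
    rintro i a ⟨⟨i', a', m'⟩, h1, h2⟩
    dsimp only [π] at h1
    subst h1
    exact (G i' m').2
  have hgred : ∀ i a (ha : a < e i) (j : {l : RamIdx e f // π l = i ∧ α l = a})
      (hj : g j ∈ W i), red i ⟨g j, hj⟩ = β i ((ramFibreEquiv e f i a ha).symm j) := by
    rintro i a ha ⟨⟨i', a', m'⟩, h1, h2⟩ hj
    dsimp only [π] at h1
    subst h1
    have e1 : (ramFibreEquiv e f i' a ha).symm ⟨⟨i', (a', m')⟩, ⟨rfl, h2⟩⟩ = m' := by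
      simp [ramFibreEquiv]
    rw [e1, ← hG i' m']
  have hg : ∀ i a, IsOrthoFamily A (W i).toSubring (vrad (W i))
      (fun j : {l : RamIdx e f // π l = i ∧ α l = a} => g j) := by
    intro i a
    by_cases ha : a < e i
    · refine hF.isOrthoFamily_of_red i _ (hgW i a) ?_
      have h1 : (fun j : {l : RamIdx e f // π l = i ∧ α l = a} => red i ⟨g j, hgW i a j⟩)
          = (β i) ∘ (ramFibreEquiv e f i a ha).symm := by
        funext j
        exact hgred i a ha j _
      rw [h1]
      exact (β i).linearIndependent.comp _ (ramFibreEquiv e f i a ha).symm.injective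
    · have hemp : IsEmpty {l : RamIdx e f // π l = i ∧ α l = a} := by
        refine ⟨fun j => ha ?_⟩
        obtain ⟨⟨i', a', m'⟩, h1, h2⟩ := j
        dsimp only [π, α] at h1 h2
        subst h1
        rw [← h2]
        exact a'.isLt
      refine ⟨fun j => (hemp.false j).elim, fun c _ _ j => (hemp.false j).elim⟩
  have hα : ∀ l : RamIdx e f, α l < e (π l) := fun l => l.2.1.isLt
  have hcard : finrank K F ≤ Fintype.card (RamIdx e f) := by
    rw [card_ramIdx]; exact hdeg
  obtain ⟨b, -, hb2, hb3, hb4, -⟩ := exists_basis_ram' (π := π) (α := α) (g := g) hW hq hR hα hg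
    hcard
  exact ⟨g, b, hα, hg, hb2, hb3, hb4⟩

/-- a product of integer powers of a fixed element -/
theorem prod_zpow_eq_zpow_sum {G : Type*} [CommGroupWithZero G] {a : G} (ha : a ≠ 0)
    {ι' : Type*} (s : Finset ι') (n : ι' → ℤ) : ∏ i ∈ s, a ^ n i = a ^ ∑ i ∈ s, n i := by
  classical
  induction s using Finset.induction_on with
  | empty => simp
  | insert x s hx ih => rw [Finset.prod_insert hx, Finset.sum_insert hx, ih, zpow_add₀ ha]

/-- **The vertical part of the norm formula**: `|Nm_{F/K} u| = |q| ^ ∑ n_i f_i` if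
`|u|_i = |ϖ i| ^ (n i)` for all `i`. -/
theorem valuation_norm_ram [Fintype ι] [Nonempty ι] [FiniteDimensional K F]
    [∀ i, FiniteDimensional k (Ft i)] (hF : RedFam A res W Ft red) (hW : Incomparable W)
    (hq : IsUnif A q) (hR : ∀ i, IsRamified A q (W i) (ϖ i) (e i))
    (hdeg : finrank K F ≤ ∑ i, e i * finrank k (Ft i)) {u : F} (n : ι → ℤ)
    (hu : ∀ i, (W i).valuation u = (W i).valuation (ϖ i) ^ n i) :
    A.valuation (Algebra.norm K u) = A.valuation q ^ ∑ i, n i * (finrank k (Ft i) : ℤ) := by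
  classical
  obtain ⟨g, b, hB⟩ := exists_ramBasis hF hW hq hR hdeg
  have hvq : A.valuation q ≠ 0 := (Valuation.ne_zero_iff _).mpr hq.ne_zero
  have hvϖ : ∀ i, (W i).valuation (ϖ i) ≠ 0 := fun i =>
    (Valuation.ne_zero_iff _).mpr ((hR i).ne_zero hq)
  choose t ht1 ht2 using fun i => exists_unif_at hW hq hR i
  have ht0 : ∀ i, t i ≠ 0 := by
    intro i h
    have := ht1 i
    rw [h, map_zero] at this
    exact hvϖ i this.symm
  -- the norm as a monoid-with-zero hom to the value group
  let ν : F →*₀ A.ValueGroup :=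
    { toFun := fun x => A.valuation (Algebra.norm K x)
      map_zero' := by rw [Algebra.norm_zero, map_zero]
      map_one' := by rw [map_one, map_one]
      map_mul' := fun x y => by rw [map_mul, map_mul] }
  have hν : ∀ x, ν x = A.valuation (Algebra.norm K x) := fun _ => rfl
  have hνt : ∀ i, ν (t i) = A.valuation q ^ (finrank k (Ft i) : ℤ) := by
    intro i
    rw [hν, hB.valuation_norm_unif hq hR (ht1 i) (ht2 i), zpow_natCast]
    congr 1
    rw [Nat.card_congr (ramFibreEquiv e (fun i => finrank k (Ft i)) i 0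
      ((hR i).e_pos hq)).symm, Nat.card_eq_fintype_card, Fintype.card_fin]
  -- the unit part
  set u' : F := u * ∏ i, t i ^ (-n i) with hu'
  have hu0 : u ≠ 0 := by
    obtain ⟨i⟩ := ‹Nonempty ι›
    intro h
    have := hu i
    rw [h, map_zero] at this
    exact zpow_ne_zero _ (hvϖ i) this.symm
  have hu'0 : u' ≠ 0 :=
    mul_ne_zero hu0 (Finset.prod_ne_zero_iff.mpr fun i _ => zpow_ne_zero _ (ht0 i))
  have hu'v : ∀ j, (W j).valuation u' = 1 := by
    intro j
    rw [hu', map_mul, map_prod, hu j, ← Finset.mul_prod_erase _ _ (Finset.mem_univ j),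
      map_zpow₀, ht1 j]
    have h1 : ∏ i ∈ Finset.univ.erase j, (W j).valuation (t i ^ (-n i)) = 1 := by
      refine Finset.prod_eq_one fun i hi => ?_
      rw [map_zpow₀, ht2 i j (Finset.ne_of_mem_erase hi).symm, one_zpow]
    rw [h1, mul_one, ← zpow_add₀ (hvϖ j), add_neg_cancel, zpow_zero]
  have h1 : ν u' = 1 := hB.valuation_norm_unit hu'0 hu'v
  have h2 : ν u' = ν u * ∏ i, (A.valuation q ^ (finrank k (Ft i) : ℤ)) ^ (-n i) := by
    rw [hu', map_mul, map_prod]
    congr 1
    refine Finset.prod_congr rfl fun i _ => ?_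
    rw [map_zpow₀, hνt]
  have h3 : ∏ i, (A.valuation q ^ (finrank k (Ft i) : ℤ)) ^ (-n i)
      = (A.valuation q ^ ∑ i, n i * (finrank k (Ft i) : ℤ))⁻¹ := by
    rw [← zpow_neg, ← Finset.sum_neg_distrib, ← prod_zpow_eq_zpow_sum hvq]
    refine Finset.prod_congr rfl fun i _ => ?_
    rw [← zpow_mul]
    congr 1
    ring
  rw [h3] at h2
  show ν u = _
  exact (mul_inv_eq_one₀ (zpow_ne_zero _ hvq)).mp (by rw [← h2, h1])

end main

end Fermat.Agent.GL.MultiVal
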