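/-
GATE-L / L1-ABS part 5 (helper90): the norm formulas with ramification for ONE and for TWO J1
reduction data (`Fermat.Agent.GJ.J1.RedData`) — adapters from `RedFam` (family language) to the
language of the concrete valuations `w₁, w₂, w₃`.

* `redFam_one R` : one reduction datum is a family over `Unit`;
  `norm_red_ram_one`, `valuation_norm_ram_one` (`F / K` finite, `[F : K] ≤ e f`).
* `redFam_two hc` : two compatible reduction data (same universe for the residue fields) are a
  family over `Bool`; `norm_red_ram_two`, `valuation_norm_ram_two`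
  (`[F : K] ≤ e₁ f₁ + e₂ f₂`):
    `res (Nm u) = Nm (red₁ u) ^ e₁ * Nm (red₂ u) ^ e₂`,
    `|Nm u| = |q| ^ (n₁ f₁ + n₂ f₂)`.
-/
import Mathlib
import Fermat.Agent.GL.MultiVal.RamVert

set_option autoImplicit false

open Module

namespace Fermat.Agent.GL.MultiVal

open Fermat.Agent.GK.MultiVal Fermat.Agent.GJ.J1

universe u

variable {K F k : Type*} [Field K] [Field F] [Algebra K F] [Field k]

/-! ### One reduction datum -/

section one

variable {Ft : Type*} [Field Ft] [Algebra k Ft] (R : RedData K F k Ft)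

theorem redFam_one :
    RedFam R.A R.res (fun _ : Unit => R.Rw) (fun _ => Ft) (fun _ => R.red) where
  mem_iff := fun _ a => R.algebraMap_mem_iff' a
  res_surj := R.res_surjective
  res_ker := R.orthoRedSystem.res_ker
  red_surj := fun _ => R.red_surjective
  red_ker := fun _ x => by
    rw [R.orthoRedSystem.red_ker, ValuationSubring.mem_nonunits_iff]
  red_algebraMap := fun _ a => R.red_algebraMap a

theorem incomparable_unit (V : ValuationSubring F) : Incomparable (fun _ : Unit => V) :=
  fun i j hij => absurd (Subsingleton.elim i j) hij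

variable {R} {q : K} {ϖ : F} {e : ℕ}

/-- **Norm-reduction with ramification, one place**: `res (Nm u) = Nm (red u) ^ e`. -/
theorem norm_red_ram_one [FiniteDimensional K F] [FiniteDimensional k Ft] (hq : IsUnif R.A q)
    (hR : IsRamified R.A q R.Rw ϖ e) (hdeg : finrank K F ≤ e * finrank k Ft) {u : F}
    (hu : u ∈ R.Rw) :
    ∃ hN : Algebra.norm K u ∈ R.A,
      R.res ⟨Algebra.norm K u, hN⟩ = Algebra.norm k (R.red ⟨u, hu⟩) ^ e := by
  have h := norm_red_ram (ι := Unit) (ϖ := fun _ => ϖ) (e := fun _ => e) (redFam_one R)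
    (incomparable_unit R.Rw) hq (fun _ => hR) (by simpa using hdeg)
    (u := u) (mem_ball.mpr fun _ => hu)
  obtain ⟨hN, h1⟩ := h
  refine ⟨hN, ?_⟩
  rw [h1]
  simp

/-- **Vertical part, one place**: `|Nm u| = |q| ^ (n f)` if `|u| = |ϖ| ^ n`. -/
theorem valuation_norm_ram_one [FiniteDimensional K F] [FiniteDimensional k Ft]
    (hq : IsUnif R.A q) (hR : IsRamified R.A q R.Rw ϖ e)
    (hdeg : finrank K F ≤ e * finrank k Ft) {u : F} (n : ℤ)
    (hu : R.Rw.valuation u = R.Rw.valuation ϖ ^ n) :
    R.A.valuation (Algebra.norm K u) = R.A.valuation q ^ (n * (finrank k Ft : ℤ)) := by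
  have h := valuation_norm_ram (ι := Unit) (ϖ := fun _ => ϖ) (e := fun _ => e) (redFam_one R)
    (incomparable_unit R.Rw) hq (fun _ => hR) (by simpa using hdeg)
    (u := u) (fun _ => n) (fun _ => hu)
  rw [h]
  simp

end one

/-! ### Two reduction data -/

section two

variable {Ft1 Ft2 : Type u} [Field Ft1] [Algebra k Ft1] [Field Ft2] [Algebra k Ft2]

/-- the pair of residue fields as a family over `Bool` (`true ↦ Ft1`, `false ↦ Ft2`) -/
abbrev pairTy (Ft1 Ft2 : Type u) : Bool → Type u := fun b => cond b Ft1 Ft2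

instance pairTy.field (b : Bool) : Field (pairTy Ft1 Ft2 b) := by
  cases b
  · exact inferInstanceAs (Field Ft2)
  · exact inferInstanceAs (Field Ft1)

instance pairTy.algebra (b : Bool) : Algebra k (pairTy Ft1 Ft2 b) := by
  cases b
  · exact inferInstanceAs (Algebra k Ft2)
  · exact inferInstanceAs (Algebra k Ft1)

instance pairTy.finiteDimensional [FiniteDimensional k Ft1] [FiniteDimensional k Ft2] (b : Bool) :
    FiniteDimensional k (pairTy Ft1 Ft2 b) := by
  cases b
  · exact inferInstanceAs (FiniteDimensional k Ft2)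
  · exact inferInstanceAs (FiniteDimensional k Ft1)

variable (R1 : RedData K F k Ft1) (R2 : RedData K F k Ft2)

/-- the pair of valuation rings as a family over `Bool` -/
def pairW : Bool → ValuationSubring F := fun b => cond b R1.Rw R2.Rw

/-- the pair of reduction maps as a family over `Bool` -/
def pairRed : ∀ b : Bool, pairW R1 R2 b →+* pairTy Ft1 Ft2 b
  | true => R1.red
  | false => R2.red

variable {R1 R2}

theorem redFam_two (hc : RedCompat R1 R2) :
    RedFam R1.A R1.res (pairW R1 R2) (pairTy Ft1 Ft2) (pairRed R1 R2) where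
  mem_iff := fun b a => by
    cases b
    · exact hc.mem_iff₂ a
    · exact R1.algebraMap_mem_iff' a
  res_surj := R1.res_surjective
  res_ker := R1.orthoRedSystem.res_ker
  red_surj := fun b => by
    cases b
    · exact R2.red_surjective
    · exact R1.red_surjective
  red_ker := fun b x => by
    cases b
    · show R2.red x = 0 ↔ _
      rw [R2.orthoRedSystem.red_ker, ValuationSubring.mem_nonunits_iff]
      rfl
    · show R1.red x = 0 ↔ _
      rw [R1.orthoRedSystem.red_ker, ValuationSubring.mem_nonunits_iff]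
      rfl
  red_algebraMap := fun b a => by
    cases b
    · show R2.red ⟨algebraMap K F (a : K), _⟩ = algebraMap k Ft2 (R1.res a)
      have ha2 : (a : K) ∈ R2.A := hc.A_eq ▸ a.2
      have h1 : R1.res a = R2.res ⟨(a : K), ha2⟩ := hc.res_eq (a : K) a.2 ha2
      rw [h1]
      exact R2.red_algebraMap ⟨(a : K), ha2⟩
    · exact R1.red_algebraMap a

theorem incomparable_pairW [Algebra.IsAlgebraic K F] (hc : RedCompat R1 R2)
    (hne : R1.Rw ≠ R2.Rw) : Incomparable (pairW R1 R2) := by
  have key : ∀ {V V' : ValuationSubring F}, (∀ a : K, algebraMap K F a ∈ V ↔ a ∈ R1.A) →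
      (∀ a : K, algebraMap K F a ∈ V' ↔ a ∈ R1.A) → V ≤ V' → V = V' := by
    intro V V' hV hV' hle
    exact eq_of_le_of_isAlgebraic (K₀ := K) hle fun c hc' => (hV c).mpr ((hV' c).mp hc')
  intro i j hij hle
  cases i <;> cases j
  · exact hij rfl
  · exact hne (key hc.mem_iff₂ R1.algebraMap_mem_iff' hle).symm
  · exact hne (key R1.algebraMap_mem_iff' hc.mem_iff₂ hle)
  · exact hij rfl

variable {q : K} {ϖ1 ϖ2 : F} {e1 e2 : ℕ}

/-- **Norm-reduction with ramification, two places**:
`res (Nm u) = Nm (red₁ u) ^ e₁ * Nm (red₂ u) ^ e₂`. -/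
theorem norm_red_ram_two [FiniteDimensional K F] [FiniteDimensional k Ft1]
    [FiniteDimensional k Ft2] (hc : RedCompat R1 R2) (hne : R1.Rw ≠ R2.Rw) (hq : IsUnif R1.A q)
    (hR1 : IsRamified R1.A q R1.Rw ϖ1 e1) (hR2 : IsRamified R1.A q R2.Rw ϖ2 e2)
    (hdeg : finrank K F ≤ e1 * finrank k Ft1 + e2 * finrank k Ft2) {u : F}
    (hu1 : u ∈ R1.Rw) (hu2 : u ∈ R2.Rw) :
    ∃ hN : Algebra.norm K u ∈ R1.A, R1.res ⟨Algebra.norm K u, hN⟩
      = Algebra.norm k (R1.red ⟨u, hu1⟩) ^ e1 * Algebra.norm k (R2.red ⟨u, hu2⟩) ^ e2 := by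
  have hub : u ∈ ball (pairW R1 R2) := mem_ball.mpr fun b => by
    cases b
    · exact hu2
    · exact hu1
  have h := norm_red_ram (ι := Bool) (ϖ := fun b => cond b ϖ1 ϖ2) (e := fun b => cond b e1 e2)
    (redFam_two hc) (incomparable_pairW hc hne) hq
    (fun b => by
      cases b
      · exact hR2
      · exact hR1)
    (by
      rw [Fintype.sum_bool]
      exact hdeg) hub
  obtain ⟨hN, h1⟩ := h
  refine ⟨hN, ?_⟩
  rw [h1, Fintype.prod_bool]
  rfl

/-- **Vertical part, two places**: `|Nm u| = |q| ^ (n₁ f₁ + n₂ f₂)`. -/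
theorem valuation_norm_ram_two [FiniteDimensional K F] [FiniteDimensional k Ft1]
    [FiniteDimensional k Ft2] (hc : RedCompat R1 R2) (hne : R1.Rw ≠ R2.Rw) (hq : IsUnif R1.A q)
    (hR1 : IsRamified R1.A q R1.Rw ϖ1 e1) (hR2 : IsRamified R1.A q R2.Rw ϖ2 e2)
    (hdeg : finrank K F ≤ e1 * finrank k Ft1 + e2 * finrank k Ft2) {u : F} (n1 n2 : ℤ)
    (hu1 : R1.Rw.valuation u = R1.Rw.valuation ϖ1 ^ n1)
    (hu2 : R2.Rw.valuation u = R2.Rw.valuation ϖ2 ^ n2) :
    R1.A.valuation (Algebra.norm K u)
      = R1.A.valuation q ^ (n1 * (finrank k Ft1 : ℤ) + n2 * (finrank k Ft2 : ℤ)) := by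
  have h := valuation_norm_ram (ι := Bool) (ϖ := fun b => cond b ϖ1 ϖ2)
    (e := fun b => cond b e1 e2) (redFam_two hc) (incomparable_pairW hc hne) hq
    (fun b => by
      cases b
      · exact hR2
      · exact hR1)
    (by
      rw [Fintype.sum_bool]
      exact hdeg) (u := u) (fun b => cond b n1 n2)
    (fun b => by
      cases b
      · exact hu2
      · exact hu1)
  rw [h, Fintype.sum_bool]
  rfl

end two

end Fermat.Agent.GL.MultiVal
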