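/-
GATE-L / L1-ABS part 6 (helper90): producing `IsUnif` / `IsRamified` from ideal-theoretic data
(the form in which concrete owners have it: `maximalIdeal = span {ϖ}`, `ϖ ^ e = q * unit`).

* `isUnif_of_maximalIdeal_eq_span`, `isUnif_of_irreducible` (DVR + irreducible element);
* `isRamified_of_maximalIdeal_eq_span` : `𝔪_V = (ϖ)` and `|ϖ|^e = |q|`;
* `isRamified_of_pow_eq_mul_unit` : `ϖ ^ e = q * u`, `u` a unit of `V`;
* `isRamified_unramified` : `𝔪_V = (q)` gives `IsRamified A q V q 1`.
-/
import Mathlib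
import Fermat.Agent.GL.MultiVal.RamFamily

set_option autoImplicit false

namespace Fermat.Agent.GL.MultiVal

variable {K F : Type*} [Field K] [Field F] [Algebra K F]

/-- an element of the maximal ideal generated by `ϖ` has valuation `≤ |ϖ|` -/
theorem valuation_le_of_maximalIdeal_eq_span (V : ValuationSubring F) (ϖ : V)
    (h : IsLocalRing.maximalIdeal V = Ideal.span {ϖ}) {x : F} (hx : V.valuation x < 1) :
    V.valuation x ≤ V.valuation (ϖ : F) := by
  have hxV : x ∈ V := (V.valuation_le_one_iff x).mp hx.le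
  have hxm : (⟨x, hxV⟩ : V) ∈ IsLocalRing.maximalIdeal V := by
    rw [IsLocalRing.mem_maximalIdeal, mem_nonunits_iff]
    intro hu
    have h1 : V.valuation x = 1 := (V.valuation_eq_one_iff ⟨x, hxV⟩).mp hu
    exact absurd hx (by rw [h1]; exact lt_irrefl _)
  rw [h, Ideal.mem_span_singleton'] at hxm
  obtain ⟨a, ha⟩ := hxm
  have h2 : x = (a : F) * (ϖ : F) := by
    have := congrArg (fun z : V => (z : F)) ha
    simpa using this.symm
  rw [h2, map_mul]
  calc V.valuation (a : F) * V.valuation (ϖ : F) ≤ 1 * V.valuation (ϖ : F) :=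
        mul_le_mul' ((V.valuation_le_one_iff _).mpr a.2) le_rfl
    _ = V.valuation (ϖ : F) := one_mul _

theorem valuation_lt_one_of_maximalIdeal_eq_span (V : ValuationSubring F) (ϖ : V)
    (h : IsLocalRing.maximalIdeal V = Ideal.span {ϖ}) : V.valuation (ϖ : F) < 1 := by
  have h1 : ϖ ∈ IsLocalRing.maximalIdeal V := by
    rw [h]; exact Ideal.mem_span_singleton_self ϖ
  rw [IsLocalRing.mem_maximalIdeal, mem_nonunits_iff] at h1
  refine lt_of_le_of_ne ((V.valuation_le_one_iff _).mpr ϖ.2) fun h2 => h1 ?_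
  exact (V.valuation_eq_one_iff ϖ).mpr h2

/-- `𝔪_A = (q)`, `q ≠ 0` gives `IsUnif A q`. -/
theorem isUnif_of_maximalIdeal_eq_span (A : ValuationSubring K) (q : A) (hq0 : (q : K) ≠ 0)
    (h : IsLocalRing.maximalIdeal A = Ideal.span {q}) : IsUnif A (q : K) where
  ne_zero := hq0
  mem := (ValuationSubring.mem_nonunits_iff _).mpr (valuation_lt_one_of_maximalIdeal_eq_span A q h)
  gen := fun _ ha =>
    valuation_le_of_maximalIdeal_eq_span A q h ((ValuationSubring.mem_nonunits_iff _).mp ha)

/-- an irreducible element of a discrete valuation ring `A` is a uniformiser in the sense of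
`IsUnif`. -/
theorem isUnif_of_irreducible (A : ValuationSubring K) [IsDiscreteValuationRing A] (q : A)
    (hq : Irreducible q) : IsUnif A (q : K) :=
  isUnif_of_maximalIdeal_eq_span A q
    (fun h => hq.ne_zero (Subtype.ext h)) (Irreducible.maximalIdeal_eq hq)

variable {A : ValuationSubring K} {q : K} {V : ValuationSubring F}

/-- `𝔪_V = (ϖ)` and `|ϖ|^e = |q|` give `IsRamified A q V ϖ e`. -/
theorem isRamified_of_maximalIdeal_eq_span (hV : ∀ a : K, algebraMap K F a ∈ V ↔ a ∈ A) (ϖ : V)
    (h : IsLocalRing.maximalIdeal V = Ideal.span {ϖ}) {e : ℕ}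
    (he : V.valuation (ϖ : F) ^ e = V.valuation (algebraMap K F q)) :
    IsRamified A q V (ϖ : F) e where
  mem_iff := hV
  lt_one := valuation_lt_one_of_maximalIdeal_eq_span V ϖ h
  gen := fun _ hx => valuation_le_of_maximalIdeal_eq_span V ϖ h hx
  pow_eq := he

/-- `𝔪_V = (ϖ)` and `ϖ ^ e = q * u` with `u` a unit of `V` give `IsRamified A q V ϖ e`. -/
theorem isRamified_of_pow_eq_mul_unit (hV : ∀ a : K, algebraMap K F a ∈ V ↔ a ∈ A) (ϖ : V)
    (h : IsLocalRing.maximalIdeal V = Ideal.span {ϖ}) {e : ℕ} {u : F}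
    (hu : V.valuation u = 1) (he : (ϖ : F) ^ e = algebraMap K F q * u) :
    IsRamified A q V (ϖ : F) e :=
  isRamified_of_maximalIdeal_eq_span hV ϖ h (by
    rw [← map_pow, he, map_mul, hu, mul_one])

/-- the unramified case: `𝔪_V = (q)` gives `IsRamified A q V q 1`. -/
theorem isRamified_unramified (hV : ∀ a : K, algebraMap K F a ∈ V ↔ a ∈ A)
    (hqV : algebraMap K F q ∈ V)
    (h : IsLocalRing.maximalIdeal V = Ideal.span {(⟨algebraMap K F q, hqV⟩ : V)}) :
    IsRamified A q V (algebraMap K F q) 1 :=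
  isRamified_of_maximalIdeal_eq_span hV ⟨algebraMap K F q, hqV⟩ h (pow_one _)

/-- the unramified case from 'every non-unit is divisible by `q`' -/
theorem isRamified_one_of_forall (hV : ∀ a : K, algebraMap K F a ∈ V ↔ a ∈ A)
    (hq1 : V.valuation (algebraMap K F q) < 1)
    (hgen : ∀ x, V.valuation x < 1 → V.valuation x ≤ V.valuation (algebraMap K F q)) :
    IsRamified A q V (algebraMap K F q) 1 where
  mem_iff := hV
  lt_one := hq1
  gen := hgen
  pow_eq := pow_one _

end Fermat.Agent.GL.MultiVal
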